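import Fermat.Agent.CAR.CNT.RI2
import Fermat.Agent.CAR.CNT.NumP1
import Fermat.Agent.CAR.FQ2C.Main
import Fermat.Agent.CAR.BK.ConcRat
import Fermat.Agent.CAR.DESC.Rank
import Fermat.Agent.CAR.P1.Defs

/-!
# CAR / P1 / Conc / RI : the fields `fin`, `ri`, `num` of `P1.Dat` in the concrete setting

`K := DSC.EH (IA A)`, `E := BK.EC A (M' * q * q) = DESC.EF (IA A) (M' * q * q)`, `t := tE A = ⟨FQ2C.tC M' q, _⟩`,
`no = (q * q + 1) * mX M'`, `nm = 2 * mX M'`, `e = q - 1`, `n = 12 * e0 M'`, `h = (q - 1) * mX M'`,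
`χ = 1 - gS M'`, `χ₂ = 1 - gS (M' * q * q)`.
-/

set_option autoImplicit false

open ModularCurve AlgebraicCurve

noncomputable section

namespace Fermat.Agent.CAR.P1.Conc

open Fermat.Agent.GAL Fermat.Agent.GAL.KL Fermat.Agent.GAL.KLC Fermat.Agent.S24
open Fermat.Agent.CAR.FQ2C Fermat.Agent.CAR.ON Fermat.Agent.CAR.DESC Fermat.Agent.CAR.BK
open Fermat.Agent.CAR.CNT Fermat.Agent.DSC

variable {M' q : ℕ} [NeZero M'] [NeZero q] (A : ValuationSubring Qb)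

/-- the parameter `t = x(τ) x(q² τ)` as an element of `E`. -/
def tE (M' q : ℕ) [NeZero M'] [NeZero q] (A : ValuationSubring Qb) : EC A (M' * q * q) :=
  ⟨FQ2C.tC M' q, tC_mem_EC A⟩

theorem coe_tE : ((tE M' q A : EC A (M' * q * q)) : FN (M' * q * q)) = FQ2C.tC M' q := rfl

section

variable (ζ : Qbˣ) (hM : AdmLevel M') (hq : q.Prime) (hqM : ¬ q ∣ M') (hA : A.LiesOverPrime q)
  (hζ : IsPrimitiveRoot ζ q)
include hM hq hqM hA hζ

theorem finite_LL_tC (a : ℕ) : Module.Finite Qb (LL Qb (FQ2C.tC M' q) a) := by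
  rw [LL_eq_L (transcendental_tC A ζ hM hq hqM hA hζ) a]
  infer_instance

/-- Riemann's inequality over `ℚ̄`. -/
theorem ri_tC (a : ℕ) :
    ((a * DD (mX M') q + 1 : ℕ) : ℤ) - (gS (M' * q * q) : ℕ)
      ≤ Module.finrank Qb (LL Qb (FQ2C.tC M' q) a) :=
  ri2 (lvl2 A ζ hq hqM hA hζ) (xDatC A hM hq hqM hA) hq.two_le (arch_C A ζ hq hA)
    (delStd A ζ hq hqM hA hζ) (card_units hq).ge (finrankAlong_al hq hqM) (finrankAlong_ga hq hqM) a

/-- **field `fin`.** -/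
theorem finC (a : ℕ) : FiniteDimensional (EH (IA A)) (LL (EH (IA A)) (tE M' q A) a) :=
  (finrank_LL_EH (tE M' q A) a (finite_LL_tC A ζ hM hq hqM hA hζ a)).1

/-- **field `ri`.** -/
theorem riC (a : ℕ) :
    (a : ℤ) * (2 * (((q * q + 1) * mX M' : ℕ) : ℤ) + ((q - 1 : ℕ) : ℤ) * ((2 * mX M' : ℕ) : ℤ))
        + (1 - (gS (M' * q * q) : ℤ))
      ≤ (Module.finrank (EH (IA A)) (LL (EH (IA A)) (tE M' q A) a) : ℤ) := by
  rw [(finrank_LL_EH (tE M' q A) a (finite_LL_tC A ζ hM hq hqM hA hζ a)).2]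
  refine le_trans (le_of_eq ?_) (ri_tC A ζ hM hq hqM hA hζ a)
  simp only [DD]
  push_cast
  ring

end

/-- **field `num`.** -/
theorem numC (hM : AdmLevel M') (hq : q.Prime) (hqM : ¬ q ∣ M') :
    ((12 * e0 M' : ℕ) : ℤ) * (1 - (gS (M' * q * q) : ℤ))
      = (((q - 1 : ℕ) : ℤ) + 2) * (((12 * e0 M' : ℕ) : ℤ) * (1 - (gS M' : ℤ))
          - (((q - 1) * mX M' : ℕ) : ℤ)) := by
  have h := num_P1 M' q hM hq hqM
  have hq1 : 1 ≤ q := hq.one_lt.le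
  push_cast [Nat.cast_sub hq1]
  linear_combination h

end Fermat.Agent.CAR.P1.Conc
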