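import Fermat.Agent.CAR.P1.Conc.Val
import Fermat.Agent.CAR.BK.BLC

/-!
# CAR / P1 / Conc / Cst : the `Q`-expansion coefficients `cfC n : E →ₗ[K] K` and the fields `cf_inj`, `cf_int` of `P1.Dat`

`K = EH (IA A) = ℚ̄^I`, `E = EC A (M' q²)`.
-/

set_option autoImplicit false
set_option linter.unusedSectionVars false

open ModularCurve AlgebraicCurve

noncomputable section

namespace Fermat.Agent.CAR.P1.Conc

open Fermat.Agent.GR Fermat.Agent.GAL Fermat.Agent.GAL.KL Fermat.Agent.GAL.KLC Fermat.Agent.S24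
open Fermat.Agent.TOR Fermat.Agent.TOR.T1
open Fermat.Agent.CAR.FQ2V Fermat.Agent.CAR.FQ2C Fermat.Agent.CAR.ON Fermat.Agent.CAR.DESC
open Fermat.Agent.CAR.BK Fermat.Agent.CAR.CNT Fermat.Agent.DSC

/-- the `n`-th coefficient of the `Q`-expansion at `∞`, any level `N`: a `K`-linear form on `E`. -/
def cfE (A : ValuationSubring Qb) (N : ℕ) (n : ℤ) : EC A N →ₗ[EH (IA A)] EH (IA A) where
  toFun z := ⟨((z : FN N) : LaurentSeries Qb).coeff n, fixC_iff_mem_EH.1 (FixS.coeff z.2 n)⟩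
  map_add' _ _ := rfl
  map_smul' c z := by
    apply Subtype.ext
    show (((c • z : EC A N) : FN N) : LaurentSeries Qb).coeff n
      = (c : Qb) * ((z : FN N) : LaurentSeries Qb).coeff n
    have e : (((c • z : EC A N) : FN N) : LaurentSeries Qb)
        = HahnSeries.C (c : Qb) * ((z : FN N) : LaurentSeries Qb) := by
      rw [← coe_algebraMap_FL (N := N), Algebra.smul_def]
      rfl
    rw [e, HahnSeries.C_mul_eq_smul, HahnSeries.coeff_smul, smul_eq_mul]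

theorem coe_cfE (A : ValuationSubring Qb) (N : ℕ) (n : ℤ) (z : EC A N) :
    ((cfE A N n z : EH (IA A)) : Qb) = ((z : FN N) : LaurentSeries Qb).coeff n := rfl

theorem cfE_inj (A : ValuationSubring Qb) (N : ℕ) (z : EC A N) (h : ∀ n, cfE A N n z = 0) : z = 0 := by
  apply Subtype.ext
  apply Subtype.ext
  ext n
  exact congrArg (fun a : EH (IA A) => (a : Qb)) (h n)

variable (M' q : ℕ) [NeZero M'] [NeZero q] (A : ValuationSubring Qb) (ζ : Qbˣ)

/-- **the datum `cf`.** -/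
def cfC (n : ℤ) : EC A (M' * q * q) →ₗ[EH (IA A)] EH (IA A) := cfE A (M' * q * q) n

variable {M' q}

theorem coe_cfC (n : ℤ) (z : EC A (M' * q * q)) :
    ((cfC M' q A n z : EH (IA A)) : Qb) = ((z : FN (M' * q * q)) : LaurentSeries Qb).coeff n := rfl

/-- **field `cf_inj`.** -/
theorem cf_injC (z : EC A (M' * q * q)) (h : ∀ i, cfC M' q A i z = 0) : z = 0 :=
  cfE_inj A _ z h

/-- constants of `A` are integral for all the valuations. -/
theorem vE_algebraMap_le_one (i : ON.Idx (ZMod q)ˣ) {a : EH (IA A)} (ha : (a : Qb) ∈ A) :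
    vE M' q A ζ i (algebraMap (EH (IA A)) (EC A (M' * q * q)) a) ≤ 1 :=
  (rd_const (M' := M') A ζ i ⟨(a : Qb), ha⟩).le_one

variable (i₀ : (ZMod q)ˣ)
variable (hM : AdmLevel M') (hq : q.Prime) (hqM : ¬ q ∣ M') (hA : A.LiesOverPrime q)
  (hζ : IsPrimitiveRoot ζ q)
include hM hq hqM hA hζ

/-- the coefficients of an element of `B_t` lie in `A`. -/
theorem coe_cfC_mem (z : EC A (M' * q * q)) (hi : IsInt (EH (IA A)) (tE M' q A) z)
    (ho : w3 M' q A ζ i₀ oo z ≤ 1) (hm : w3 M' q A ζ i₀ (md ()) z ≤ 1)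
    (hz : w3 M' q A ζ i₀ zr z ≤ 1) (i : ℤ) : ((cfC M' q A i z : EH (IA A)) : Qb) ∈ A :=
  coeff_mem_of_isInt_C A ζ hM hq hqM hA hζ ((isInt_tE_iff A z).1 hi)
    (all_le_one A ζ hM hq hqM hA hζ i₀ ho hm hz) i

/-- **field `cf_int`.** -/
theorem cf_intC (z : EC A (M' * q * q)) (hi : IsInt (EH (IA A)) (tE M' q A) z)
    (ho : w3 M' q A ζ i₀ oo z ≤ 1) (hm : w3 M' q A ζ i₀ (md ()) z ≤ 1)
    (hz : w3 M' q A ζ i₀ zr z ≤ 1) (i : ℤ) :
    w3 M' q A ζ i₀ oo (algebraMap (EH (IA A)) (EC A (M' * q * q)) (cfC M' q A i z)) ≤ 1 :=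
  vE_algebraMap_le_one A ζ oo (coe_cfC_mem A ζ i₀ hM hq hqM hA hζ z hi ho hm hz i)

end Fermat.Agent.CAR.P1.Conc
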