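import Fermat.Agent.CAR.P1.Adapt
import Fermat.Agent.CAR.P1.MainOo
import Fermat.Agent.CAR.P1.Conc.RI
import Fermat.Agent.CAR.BK.ConcKR
import Fermat.Agent.CAR.DESC.IntO

/-!
# CAR / P1 / Conc / Geo : from a datum of the count on `E = EC A (M' q²)` to the fields `prm`, `proz`, `inf` of `Main.Geo`

`D : P1.Dat (EH (IA A)) (EC A (M' q²)) (kA A) (ΓU A)` ARBITRARY, matched with the concrete objects by `Mt`:
`D.vo = v3 .. oo`, `D.vm = v3 .. (md ())`, `D.vz = v3 .. zr`, `D.t = tE M' q A`, `D.ϖ = q`.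

* `Mt.hB`, `Mt.hB_inv`   : `BC`, `BCinf` are the chart rings of `D`;
* `Mt.adp`, `Mt.adp_inv` : the dictionary `P1.Adp`, `π = q`;
* `Mt.disc3`, `Mt.disc3_inv` : `NS.Disc3` for any element of the chart ring with the `vm`-value of `D.ν₀`;
* `Mt.prmC`, `Mt.prozC`, `Mt.prmiC` : the fields of `Main.Geo`, for `BC`, `BCinf`;
* `Mt.prmF`, `Mt.prozF`, `Mt.prmiF` : VERBATIM the fields `prm`, `proz` and the third part of `inf` of `Main.Geo` (`BF`, `BFinf`).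
-/

set_option autoImplicit false
set_option linter.unusedSectionVars false

open ModularCurve AlgebraicCurve

noncomputable section

namespace Fermat.Agent.CAR.P1.Conc

open Fermat.Agent.GR Fermat.Agent.GAL Fermat.Agent.GAL.KL Fermat.Agent.GAL.KLC Fermat.Agent.S24
open Fermat.Agent.TOR.T1
open Fermat.Agent.CAR.FQ2V Fermat.Agent.CAR.FQ2E Fermat.Agent.CAR.FQ2C Fermat.Agent.CAR.ON
open Fermat.Agent.CAR.DESC Fermat.Agent.CAR.BK Fermat.Agent.DSC Fermat.Agent.CAR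

variable {M' q : ℕ} [NeZero M'] [NeZero q] {A : ValuationSubring Qb} {ζ : Qbˣ}

/-- the datum `D` of the count lives on the concrete objects. -/
structure Mt (D : P1.Dat (EH (IA A)) (EC A (M' * q * q)) (kA A) (ΓU A)) (ζ : Qbˣ) (i₀ : (ZMod q)ˣ) :
    Prop where
  vo : D.vo = v3 (EC A (M' * q * q)) (vC M' q A ζ) i₀ oo
  vm : D.vm = v3 (EC A (M' * q * q)) (vC M' q A ζ) i₀ (md ())
  vz : D.vz = v3 (EC A (M' * q * q)) (vC M' q A ζ) i₀ zr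
  t : D.t = tE M' q A
  ϖ : D.ϖ = (q : EH (IA A))

namespace Mt

variable {D : P1.Dat (EH (IA A)) (EC A (M' * q * q)) (kA A) (ΓU A)} {i₀ : (ZMod q)ˣ}

/-- the unit ball of `D` is the unit ball of the whole family `vC`. -/
theorem ball_iff (T : Mt D ζ i₀) (hq : q.Prime) (hqM : ¬ q ∣ M') (hA : A.LiesOverPrime q)
    (hζ : IsPrimitiveRoot ζ q) (x : EC A (M' * q * q)) :
    D.Ball x ↔ ∀ i, vC M' q A ζ i (x : FN (M' * q * q)) ≤ 1 := by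
  unfold P1.Dat.Ball
  rw [T.vo, T.vm, T.vz]
  constructor
  · rintro ⟨h1, h2, h3⟩ i
    rcases i with _ | _ | i
    · exact h1
    · exact h3
    · have h4 : vC M' q A ζ (md i₀) (x : FN (M' * q * q)) ≤ 1 := h2
      have h5 : vC M' q A ζ (md i) (x : FN (M' * q * q)) = vC M' q A ζ (md i₀) x :=
        vC_md_eq A ζ hq hqM hA hζ x.2 i i₀
      exact h5 ▸ h4
  · intro h
    exact ⟨h _, h _, h _⟩

/-- `BC` is the chart ring of `D` for the parameter `t`. -/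
theorem hB (T : Mt D ζ i₀) (hq : q.Prime) (hqM : ¬ q ∣ M') (hA : A.LiesOverPrime q)
    (hζ : IsPrimitiveRoot ζ q) (x : EC A (M' * q * q)) :
    x ∈ BC M' q A ζ ↔ IsInt (EH (IA A)) D.t x ∧ D.Ball x := by
  rw [mem_Bu, T.ball_iff hq hqM hA hζ, T.t, isInt_EH_iff]
  rfl

/-- `BCinf` is the chart ring of `D` for the parameter `1/t`. -/
theorem hB_inv (T : Mt D ζ i₀) (hq : q.Prime) (hqM : ¬ q ∣ M') (hA : A.LiesOverPrime q)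
    (hζ : IsPrimitiveRoot ζ q) (x : EC A (M' * q * q)) :
    x ∈ BCinf M' q A ζ ↔ IsInt (EH (IA A)) D.t⁻¹ x ∧ D.Ball x := by
  rw [mem_Bu, T.ball_iff hq hqM hA hζ, T.t, isInt_EH_iff]
  rfl

theorem coe_pi (T : Mt D ζ i₀) (u : FN (M' * q * q)) :
    (((q : ℕ) : Bu Qb (EC A (M' * q * q)) (vC M' q A ζ) u) : EC A (M' * q * q)) = D.pi := by
  unfold P1.Dat.pi
  rw [T.ϖ, map_natCast]
  rfl

/-- the dictionary for any chart ring `Bu .. u`. -/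
theorem adp (T : Mt D ζ i₀) (u : FN (M' * q * q)) :
    P1.Adp D (Bu Qb (EC A (M' * q * q)) (vC M' q A ζ) u) (v3 (EC A (M' * q * q)) (vC M' q A ζ) i₀)
      oo (md ()) zr ((q : ℕ) : Bu Qb (EC A (M' * q * q)) (vC M' q A ζ) u) where
  h3 := Vert_idx_cases
  vo := T.vo.symm
  vm := T.vm.symm
  vz := T.vz.symm
  pi := T.coe_pi u

/-- [D3] from the datum: `NS.Disc3` on any chart ring, for any element with the `vm`-value of `D.ν₀`. -/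
theorem disc3 (T : Mt D ζ i₀) (u : FN (M' * q * q))
    {ν' : Bu Qb (EC A (M' * q * q)) (vC M' q A ζ) u}
    (hν' : D.vm (ν' : EC A (M' * q * q)) = D.vm D.ν₀) :
    NS.Disc3 (Bu Qb (EC A (M' * q * q)) (vC M' q A ζ) u) (v3 (EC A (M' * q * q)) (vC M' q A ζ) i₀)
      oo (md ()) zr ((q : ℕ) : Bu Qb (EC A (M' * q * q)) (vC M' q A ζ) u) ν' D.e :=
  (T.adp u).disc3 hν'

variable (hM : AdmLevel M') (hq : q.Prime) (hqM : ¬ q ∣ M') (hA : A.LiesOverPrime q)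
  (hζ : IsPrimitiveRoot ζ q)
include hM hq hqM hA hζ

/-- field `prm` of `Main.Geo`, for `BC`. -/
theorem prmC (T : Mt D ζ i₀) :
    ∀ P : Ideal (BC M' q A ζ), P.IsMaximal →
      pK Qb (EC A (M' * q * q)) (vC M' q A ζ) (FQ2C.tC M' q) i₀ (md ()) ≤ P →
      ¬ pK Qb (EC A (M' * q * q)) (vC M' q A ζ) (FQ2C.tC M' q) i₀ oo ≤ P →
      ¬ pK Qb (EC A (M' * q * q)) (vC M' q A ζ) (FQ2C.tC M' q) i₀ zr ≤ P →
      ∃ ν y : BC M' q A ζ, y ∉ P ∧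
        NS.GenOn (BC M' q A ζ) (v3 (EC A (M' * q * q)) (vC M' q A ζ) i₀ (md ()))
          (pK Qb (EC A (M' * q * q)) (vC M' q A ζ) (FQ2C.tC M' q) i₀ (md ())) ν y :=
  (T.adp _).prm_t (vertC A ζ hM hq hqM hA hζ i₀) (krC A ζ hM hq hqM hA hζ i₀)
    (T.hB hq hqM hA hζ)

/-- field `proz` of `Main.Geo`, for `BC`. -/
theorem prozC (T : Mt D ζ i₀)
    (INC : ∀ P : Ideal (BC M' q A ζ), P.IsMaximal → ∀ i j, i ≠ j →
      pK Qb (EC A (M' * q * q)) (vC M' q A ζ) (FQ2C.tC M' q) i₀ i ≤ P →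
      pK Qb (EC A (M' * q * q)) (vC M' q A ζ) (FQ2C.tC M' q) i₀ j ≤ P →
      ∀ l, pK Qb (EC A (M' * q * q)) (vC M' q A ζ) (FQ2C.tC M' q) i₀ l ≤ P) :
    ∀ P : Ideal (BC M' q A ζ), P.IsMaximal →
      pK Qb (EC A (M' * q * q)) (vC M' q A ζ) (FQ2C.tC M' q) i₀ oo ≤ P →
      pK Qb (EC A (M' * q * q)) (vC M' q A ζ) (FQ2C.tC M' q) i₀ zr ≤ P →
      ∃ ν y : BC M' q A ζ, y ∉ P ∧
        NS.GenOn (BC M' q A ζ) (v3 (EC A (M' * q * q)) (vC M' q A ζ) i₀ oo)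
          (pK Qb (EC A (M' * q * q)) (vC M' q A ζ) (FQ2C.tC M' q) i₀ oo) ν y :=
  (T.adp _).proz (vertC A ζ hM hq hqM hA hζ i₀) (krC A ζ hM hq hqM hA hζ i₀) INC
    (fun P hP ho hm hz => D.export_oo _ (T.hB hq hqM hA hζ) P hP ho hm hz)

/-- third part of the field `inf` of `Main.Geo`, for `BCinf`. -/
theorem prmiC (T : Mt D ζ i₀)
    (intm' : ∀ x φ, IsInt (EH (IA A)) D.t⁻¹ x → D.Ball x → Rd D.ρm x φ → IsInt (kA A) D.τm⁻¹ φ)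
    (surj' : ∀ x φ, Rd D.ρm x φ → IsInt (kA A) D.τm⁻¹ φ →
      ∃ β, IsInt (EH (IA A)) D.t⁻¹ β ∧ D.Ball β ∧ Rd D.ρm β φ)
    (uniq : ∀ x φ, Rd D.ρm x φ → IsInt (kA A) D.τm⁻¹ φ → (∀ i : ℤ, i ≤ 0 → φ.coeff i = 0) →
      ∃ N : ℕ, IsInt (kA A) D.τm⁻¹ (φ ^ N * D.τm))
    (s : BCinf M' q A ζ)
    (ONE : ∀ P : Ideal (BCinf M' q A ζ), P.IsMaximal → s ∈ P → ∀ i j,
      pK Qb (EC A (M' * q * q)) (vC M' q A ζ) (FQ2C.tC M' q)⁻¹ i₀ i ≤ P →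
      pK Qb (EC A (M' * q * q)) (vC M' q A ζ) (FQ2C.tC M' q)⁻¹ i₀ j ≤ P → i = j) :
    ∀ P : Ideal (BCinf M' q A ζ), P.IsMaximal → s ∈ P →
      pK Qb (EC A (M' * q * q)) (vC M' q A ζ) (FQ2C.tC M' q)⁻¹ i₀ (md ()) ≤ P →
      ∃ ν y : BCinf M' q A ζ, y ∉ P ∧
        NS.GenOn (BCinf M' q A ζ) (v3 (EC A (M' * q * q)) (vC M' q A ζ) i₀ (md ()))
          (pK Qb (EC A (M' * q * q)) (vC M' q A ζ) (FQ2C.tC M' q)⁻¹ i₀ (md ())) ν y :=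
  (T.adp _).prm_inf (vertC_inv A ζ hM hq hqM hA hζ i₀) (krC_inv A ζ hM hq hqM hA hζ i₀)
    (T.hB_inv hq hqM hA hζ) intm' surj' uniq s ONE

/-! ### transport to `E = FK A (M' q²)` -/

/-- field `prm` of `Main.Geo`, VERBATIM. -/
theorem prmF (T : Mt D ζ i₀) :
    ∀ P : Ideal (BF M' q A ζ), P.IsMaximal →
      pK Qb (NRM.Inst.FK A (M' * q * q)) (vC M' q A ζ) (FQ2C.tC M' q) i₀ (md ()) ≤ P →
      ¬ pK Qb (NRM.Inst.FK A (M' * q * q)) (vC M' q A ζ) (FQ2C.tC M' q) i₀ oo ≤ P →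
      ¬ pK Qb (NRM.Inst.FK A (M' * q * q)) (vC M' q A ζ) (FQ2C.tC M' q) i₀ zr ≤ P →
      ∃ ν y : BF M' q A ζ, y ∉ P ∧
        NS.GenOn (BF M' q A ζ) (v3 (NRM.Inst.FK A (M' * q * q)) (vC M' q A ζ) i₀ (md ()))
          (pK Qb (NRM.Inst.FK A (M' * q * q)) (vC M' q A ζ) (FQ2C.tC M' q) i₀ (md ())) ν y := by
  have key : ∀ E : Subfield (FN (M' * q * q)), EC A (M' * q * q) = E →
      ∀ P : Ideal (Bu Qb E (vC M' q A ζ) (FQ2C.tC M' q)), P.IsMaximal →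
      pK Qb E (vC M' q A ζ) (FQ2C.tC M' q) i₀ (md ()) ≤ P →
      ¬ pK Qb E (vC M' q A ζ) (FQ2C.tC M' q) i₀ oo ≤ P →
      ¬ pK Qb E (vC M' q A ζ) (FQ2C.tC M' q) i₀ zr ≤ P →
      ∃ ν y : Bu Qb E (vC M' q A ζ) (FQ2C.tC M' q), y ∉ P ∧
        NS.GenOn (Bu Qb E (vC M' q A ζ) (FQ2C.tC M' q)) (v3 E (vC M' q A ζ) i₀ (md ()))
          (pK Qb E (vC M' q A ζ) (FQ2C.tC M' q) i₀ (md ())) ν y := by
    rintro E rfl
    exact T.prmC hM hq hqM hA hζ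
  exact key _ (EC_eq_FK A _)

/-- field `proz` of `Main.Geo`, VERBATIM (from the field `inc`). -/
theorem prozF (T : Mt D ζ i₀)
    (INC : ∀ P : Ideal (BF M' q A ζ), P.IsMaximal → ∀ i j, i ≠ j →
      pK Qb (NRM.Inst.FK A (M' * q * q)) (vC M' q A ζ) (FQ2C.tC M' q) i₀ i ≤ P →
      pK Qb (NRM.Inst.FK A (M' * q * q)) (vC M' q A ζ) (FQ2C.tC M' q) i₀ j ≤ P →
      ∀ l, pK Qb (NRM.Inst.FK A (M' * q * q)) (vC M' q A ζ) (FQ2C.tC M' q) i₀ l ≤ P) :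
    ∀ P : Ideal (BF M' q A ζ), P.IsMaximal →
      pK Qb (NRM.Inst.FK A (M' * q * q)) (vC M' q A ζ) (FQ2C.tC M' q) i₀ oo ≤ P →
      pK Qb (NRM.Inst.FK A (M' * q * q)) (vC M' q A ζ) (FQ2C.tC M' q) i₀ zr ≤ P →
      ∃ ν y : BF M' q A ζ, y ∉ P ∧
        NS.GenOn (BF M' q A ζ) (v3 (NRM.Inst.FK A (M' * q * q)) (vC M' q A ζ) i₀ oo)
          (pK Qb (NRM.Inst.FK A (M' * q * q)) (vC M' q A ζ) (FQ2C.tC M' q) i₀ oo) ν y := by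
  have key : ∀ E : Subfield (FN (M' * q * q)), EC A (M' * q * q) = E →
      (∀ P : Ideal (Bu Qb E (vC M' q A ζ) (FQ2C.tC M' q)), P.IsMaximal → ∀ i j, i ≠ j →
        pK Qb E (vC M' q A ζ) (FQ2C.tC M' q) i₀ i ≤ P →
        pK Qb E (vC M' q A ζ) (FQ2C.tC M' q) i₀ j ≤ P →
        ∀ l, pK Qb E (vC M' q A ζ) (FQ2C.tC M' q) i₀ l ≤ P) →
      ∀ P : Ideal (Bu Qb E (vC M' q A ζ) (FQ2C.tC M' q)), P.IsMaximal →
      pK Qb E (vC M' q A ζ) (FQ2C.tC M' q) i₀ oo ≤ P →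
      pK Qb E (vC M' q A ζ) (FQ2C.tC M' q) i₀ zr ≤ P →
      ∃ ν y : Bu Qb E (vC M' q A ζ) (FQ2C.tC M' q), y ∉ P ∧
        NS.GenOn (Bu Qb E (vC M' q A ζ) (FQ2C.tC M' q)) (v3 E (vC M' q A ζ) i₀ oo)
          (pK Qb E (vC M' q A ζ) (FQ2C.tC M' q) i₀ oo) ν y := by
    rintro E rfl INC
    exact T.prozC hM hq hqM hA hζ INC
  exact key _ (EC_eq_FK A _) INC

/-- third part of the field `inf` of `Main.Geo`, VERBATIM (from the second part `ONE`). -/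
theorem prmiF (T : Mt D ζ i₀)
    (intm' : ∀ x φ, IsInt (EH (IA A)) D.t⁻¹ x → D.Ball x → Rd D.ρm x φ → IsInt (kA A) D.τm⁻¹ φ)
    (surj' : ∀ x φ, Rd D.ρm x φ → IsInt (kA A) D.τm⁻¹ φ →
      ∃ β, IsInt (EH (IA A)) D.t⁻¹ β ∧ D.Ball β ∧ Rd D.ρm β φ)
    (uniq : ∀ x φ, Rd D.ρm x φ → IsInt (kA A) D.τm⁻¹ φ → (∀ i : ℤ, i ≤ 0 → φ.coeff i = 0) →
      ∃ N : ℕ, IsInt (kA A) D.τm⁻¹ (φ ^ N * D.τm))
    (s : BFinf M' q A ζ)
    (ONE : ∀ P : Ideal (BFinf M' q A ζ), P.IsMaximal → s ∈ P → ∀ i j,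
      pK Qb (NRM.Inst.FK A (M' * q * q)) (vC M' q A ζ) (FQ2C.tC M' q)⁻¹ i₀ i ≤ P →
      pK Qb (NRM.Inst.FK A (M' * q * q)) (vC M' q A ζ) (FQ2C.tC M' q)⁻¹ i₀ j ≤ P → i = j) :
    ∀ P : Ideal (BFinf M' q A ζ), P.IsMaximal → s ∈ P →
      pK Qb (NRM.Inst.FK A (M' * q * q)) (vC M' q A ζ) (FQ2C.tC M' q)⁻¹ i₀ (md ()) ≤ P →
      ∃ ν y : BFinf M' q A ζ, y ∉ P ∧
        NS.GenOn (BFinf M' q A ζ) (v3 (NRM.Inst.FK A (M' * q * q)) (vC M' q A ζ) i₀ (md ()))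
          (pK Qb (NRM.Inst.FK A (M' * q * q)) (vC M' q A ζ) (FQ2C.tC M' q)⁻¹ i₀ (md ())) ν y := by
  have key : ∀ E : Subfield (FN (M' * q * q)), EC A (M' * q * q) = E →
      ∀ s : Bu Qb E (vC M' q A ζ) (FQ2C.tC M' q)⁻¹,
      (∀ P : Ideal (Bu Qb E (vC M' q A ζ) (FQ2C.tC M' q)⁻¹), P.IsMaximal → s ∈ P → ∀ i j,
        pK Qb E (vC M' q A ζ) (FQ2C.tC M' q)⁻¹ i₀ i ≤ P →
        pK Qb E (vC M' q A ζ) (FQ2C.tC M' q)⁻¹ i₀ j ≤ P → i = j) →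
      ∀ P : Ideal (Bu Qb E (vC M' q A ζ) (FQ2C.tC M' q)⁻¹), P.IsMaximal → s ∈ P →
      pK Qb E (vC M' q A ζ) (FQ2C.tC M' q)⁻¹ i₀ (md ()) ≤ P →
      ∃ ν y : Bu Qb E (vC M' q A ζ) (FQ2C.tC M' q)⁻¹, y ∉ P ∧
        NS.GenOn (Bu Qb E (vC M' q A ζ) (FQ2C.tC M' q)⁻¹) (v3 E (vC M' q A ζ) i₀ (md ()))
          (pK Qb E (vC M' q A ζ) (FQ2C.tC M' q)⁻¹ i₀ (md ())) ν y := by
    rintro E rfl s ONE
    exact T.prmiC hM hq hqM hA hζ intm' surj' uniq s ONE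
  exact key _ (EC_eq_FK A _) s ONE

end Mt

end Fermat.Agent.CAR.P1.Conc
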