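import Fermat.Agent.CAR.P1.Conc.Val
import Fermat.Agent.CAR.P1.Uniq

/-!
# CAR / P1 / Conc / Uniq : the hypotheses `intm'`, `surj'`, `uniq` of `P1.Dat.export_inv` / `P1.Adp.prm_inf`, concretely

`D.t = tE M' q A`, `D.τm = xR (kA A) M' ^ (1 + 1)`, `D.ρm = rhoE M' q A ζ (md i₀)`,
`D.Ball z = (vE oo z ≤ 1 ∧ vE (md i₀) z ≤ 1 ∧ vE zr z ≤ 1)`.
-/

set_option autoImplicit false
set_option linter.unusedSectionVars false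

open ModularCurve AlgebraicCurve

noncomputable section

namespace Fermat.Agent.CAR.P1.Conc

open Fermat.Agent.GR Fermat.Agent.GAL Fermat.Agent.GAL.KL Fermat.Agent.GAL.KLC Fermat.Agent.S24
open Fermat.Agent.TOR Fermat.Agent.TOR.T1
open Fermat.Agent.CAR.FQ2V Fermat.Agent.CAR.FQ2C Fermat.Agent.CAR.ON Fermat.Agent.CAR.DESC
open Fermat.Agent.CAR.BK Fermat.Agent.CAR.CNT Fermat.Agent.DSC

variable {M' q : ℕ} [NeZero M'] [NeZero q] (A : ValuationSubring Qb) (ζ : Qbˣ)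
  (hM : AdmLevel M') (hq : q.Prime) (hqM : ¬ q ∣ M') (hA : A.LiesOverPrime q)
  (hζ : IsPrimitiveRoot ζ q)
include hM hq hqM hA hζ

/-- **hypothesis `intm'`.** -/
theorem intmInvE (i₀ : (ZMod q)ˣ) (z : EC A (M' * q * q)) (φ : LaurentSeries (kA A))
    (hi : IsInt (EH (IA A)) (tE M' q A)⁻¹ z)
    (hb : vE M' q A ζ oo z ≤ 1 ∧ vE M' q A ζ (md i₀) z ≤ 1 ∧ vE M' q A ζ zr z ≤ 1)
    (h : Rd (rhoE M' q A ζ (md i₀)) z φ) : IsInt (kA A) (xR (kA A) M' ^ (1 + 1))⁻¹ φ :=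
  intm_inf (chartC_inv A ζ hM hq hqM hA hζ) i₀ ((isInt_E_iff A _ _).1 hi)
    (all_le_one A ζ hM hq hqM hA hζ i₀ hb.1 hb.2.1 hb.2.2) ((rd_rhoE A ζ _).1 h)

/-- **hypothesis `surj'`.** -/
theorem surjInvE (i₀ : (ZMod q)ˣ) (z : EC A (M' * q * q)) (φ : LaurentSeries (kA A))
    (h : Rd (rhoE M' q A ζ (md i₀)) z φ) (hφ : IsInt (kA A) (xR (kA A) M' ^ (1 + 1))⁻¹ φ) :
    ∃ β : EC A (M' * q * q), IsInt (EH (IA A)) (tE M' q A)⁻¹ β ∧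
      (vE M' q A ζ oo β ≤ 1 ∧ vE M' q A ζ (md i₀) β ≤ 1 ∧ vE M' q A ζ zr β ≤ 1) ∧
      Rd (rhoE M' q A ζ (md i₀)) β φ := by
  obtain ⟨b, hbE, hbI, hbv, hbr⟩ := surj_inf (lvl2 A ζ hq hqM hA hζ)
    (chartC_inv A ζ hM hq hqM hA hζ) i₀ z.2 ((rd_rhoE A ζ _).1 h) hφ
  exact ⟨⟨b, hbE⟩, (isInt_E_iff A _ _).2 hbI, ⟨hbv _, hbv _, hbv _⟩, (rd_rhoE A ζ _).2 hbr⟩

/-- **hypothesis `uniq`.** -/
theorem uniqInvE (i₀ : (ZMod q)ˣ) (z : EC A (M' * q * q)) (φ : LaurentSeries (kA A))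
    (h : Rd (rhoE M' q A ζ (md i₀)) z φ) (hφ : IsInt (kA A) (xR (kA A) M' ^ (1 + 1))⁻¹ φ)
    (h0 : ∀ i : ℤ, i ≤ 0 → φ.coeff i = 0) :
    ∃ N : ℕ, IsInt (kA A) (xR (kA A) M' ^ (1 + 1))⁻¹ (φ ^ N * xR (kA A) M' ^ (1 + 1)) :=
  uniq_inf (lvl2 A ζ hq hqM hA hζ) (xDatC A hM hq hqM hA) (chartC_inv A ζ hM hq hqM hA hζ) i₀ z.2
    ((rd_rhoE A ζ _).1 h) hφ h0

end Fermat.Agent.CAR.P1.Conc
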