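import Fermat.Agent.CAR.P1.Conc.Val
import Fermat.Agent.CAR.P1.DegBridge
import Fermat.Agent.CAR.XT.Int
import Fermat.Agent.CAR.TH1.Formal
import Fermat.Agent.CAR.TH1.Pl.Theta
import Fermat.Agent.CAR.BK.BLC
import Fermat.Agent.CAR.NS.Asm3
import Fermat.Agent.CAR.P1.Conc.Geo
import Fermat.Agent.CAR.P1.Conc.Uniq

/-!
# CAR / P1 / Conc / Dat : THE CONCRETE DATUM OF THE COUNT   `datC : P1.Dat (EH (IA A)) (EC A (M' q²)) (kA A) (ΓU A)`

The only input which is not plugged in: [D3] = `NS.Disc3` for the chart ring `BC` with `π = q`, `e = q - 1`.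
-/

set_option autoImplicit false
set_option linter.unusedSectionVars false

open ModularCurve AlgebraicCurve

noncomputable section

namespace Fermat.Agent.CAR.P1.Conc

open Fermat.Agent.GR Fermat.Agent.GAL Fermat.Agent.GAL.KL Fermat.Agent.GAL.KLC Fermat.Agent.S24
open Fermat.Agent.TOR Fermat.Agent.TOR.T1
open Fermat.Agent.CAR.FQ2V Fermat.Agent.CAR.FQ2C Fermat.Agent.CAR.ON Fermat.Agent.CAR.DESC
open Fermat.Agent.CAR.BK Fermat.Agent.CAR.CNT Fermat.Agent.DSC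

variable {M' q : ℕ} [NeZero M'] [NeZero q] (A : ValuationSubring Qb) (ζ : Qbˣ)

/-! ## the modular units as elements of `E` -/

/-- `X_∞`. -/
def datXo (hq : q.Prime) (hqM : ¬ q ∣ M') : EC A (M' * q * q) := ⟨XT.Xo M' q, XT.Xo_mem_EC hq hqM A⟩

/-- `X_0`. -/
def datXz (M' q : ℕ) [NeZero M'] [NeZero q] (A : ValuationSubring Qb) : EC A (M' * q * q) :=
  ⟨XT.Xz M' q, XT.Xz_mem_EC A⟩

/-! ## the coefficients -/

/-- the `Q`-expansion coefficients `E → K`. -/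
def datCf (M' q : ℕ) [NeZero M'] [NeZero q] (A : ValuationSubring Qb) (n : ℤ) :
    EC A (M' * q * q) →ₗ[EH (IA A)] EH (IA A) where
  toFun z := ⟨((z : FN (M' * q * q)) : LaurentSeries Qb).coeff n,
    fixC_iff_mem_EH.1 (FixS.coeff z.2 n)⟩
  map_add' := fun _ _ => rfl
  map_smul' := fun a z => by
    apply Subtype.ext
    show (((a • z : EC A (M' * q * q)) : FN (M' * q * q)) : LaurentSeries Qb).coeff n
      = (a : Qb) * ((z : FN (M' * q * q)) : LaurentSeries Qb).coeff n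
    have h : (((a • z : EC A (M' * q * q)) : FN (M' * q * q)) : LaurentSeries Qb)
        = HahnSeries.C (a : Qb) * ((z : FN (M' * q * q)) : LaurentSeries Qb) := by
      rw [Algebra.smul_def]
      show ((algebraMap Qb (FN (M' * q * q)) (a : Qb) : FN (M' * q * q)) : LaurentSeries Qb) * _ = _
      rw [coe_algebraMap_FL]
    rw [h, HahnSeries.C_mul_eq_smul, HahnSeries.coeff_smul, smul_eq_mul]

theorem coe_datCf (n : ℤ) (z : EC A (M' * q * q)) :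
    ((datCf M' q A n z : EH (IA A)) : Qb) = ((z : FN (M' * q * q)) : LaurentSeries Qb).coeff n := rfl

theorem datCf_inj (z : EC A (M' * q * q)) (h : ∀ i, datCf M' q A i z = 0) : z = 0 := by
  apply Subtype.ext
  apply Subtype.ext
  ext n
  exact congrArg Subtype.val (h n)

/-- `π = q` in the three languages. -/
theorem coe_piK' : ((algebraMap (EH (IA A)) (EC A (M' * q * q)) (piK q A) : EC A (M' * q * q)) :
    FN (M' * q * q)) = algebraMap Qb (FN (M' * q * q)) (q : Qb) := by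
  rw [coe_piK, map_natCast]

theorem algebraMap_piK (u : FN (M' * q * q)) :
    algebraMap (EH (IA A)) (EC A (M' * q * q)) (piK q A)
      = (((q : Bu Qb (EC A (M' * q * q)) (vC M' q A ζ) u) : Bu Qb (EC A (M' * q * q)) (vC M' q A ζ) u) :
          EC A (M' * q * q)) := by
  apply Subtype.ext
  rw [coe_piK', coe_natCast_Bu]

theorem vE_piK (i : ON.Idx (ZMod q)ˣ) :
    vE M' q A ζ i (algebraMap (EH (IA A)) (EC A (M' * q * q)) (piK q A)) = XT.vq A q := by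
  rw [vE_apply, coe_piK']
  exact XT.vC_q A ζ i

theorem datCf_int (hM : AdmLevel M') (hq : q.Prime) (hqM : ¬ q ∣ M') (hA : A.LiesOverPrime q)
    (hζ : IsPrimitiveRoot ζ q) (i₀ : (ZMod q)ˣ) (z : EC A (M' * q * q))
    (hi : IsInt (EH (IA A)) (tE M' q A) z) (ho : vE M' q A ζ oo z ≤ 1)
    (hm : vE M' q A ζ (md i₀) z ≤ 1) (hz : vE M' q A ζ zr z ≤ 1) (n : ℤ) :
    vE M' q A ζ oo (algebraMap (EH (IA A)) (EC A (M' * q * q)) (datCf M' q A n z)) ≤ 1 := by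
  have h1 := coeff_mem_of_isInt_C A ζ hM hq hqM hA hζ ((isInt_E_iff A _ _).1 hi)
    (all_le_one A ζ hM hq hqM hA hζ i₀ ho hm hz) n
  exact (rd_const A ζ oo ⟨_, h1⟩).le_one

section

variable (hM : AdmLevel M') (hq : q.Prime) (hqM : ¬ q ∣ M') (hA : A.LiesOverPrime q)
  (hζ : IsPrimitiveRoot ζ q) (i₀ : (ZMod q)ˣ)

/-- the uniformiser `ν₀ = ν_t X_∞ X_0` of the middle valuation. -/
def datNu (νt : BC M' q A ζ) : EC A (M' * q * q) :=
  (νt : EC A (M' * q * q)) * datXo A hq hqM * datXz M' q A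

include hM hq hqM hA hζ

theorem vE_datNu_md (νt : BC M' q A ζ) :
    vE M' q A ζ (md i₀) (datNu A ζ hq hqM νt) = vE M' q A ζ (md i₀) (νt : EC A (M' * q * q)) := by
  have h1 : vE M' q A ζ (md i₀) (datXo A hq hqM) = 1 := XT.vC_md_Xo hq hqM A hA ζ hζ i₀
  have h2 : vE M' q A ζ (md i₀) (datXz M' q A) = 1 := XT.vC_md_Xz A ζ i₀
  rw [datNu, map_mul, map_mul, h1, h2, mul_one, mul_one]

theorem vE_datNu_oo (νt : BC M' q A ζ) : vE M' q A ζ oo (datNu A ζ hq hqM νt) < 1 := by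
  have h0 : vE M' q A ζ oo (νt : EC A (M' * q * q)) ≤ 1 := νt.2.2 oo
  have h1 : vE M' q A ζ oo (datXo A hq hqM) < 1 := by
    have : vE M' q A ζ oo (datXo A hq hqM) = XT.vq A q ^ XT.NX M' := XT.vC_oo_Xo hq hqM A ζ
    rw [this]
    exact pow_lt_one₀ zero_le (XT.vq_lt_one A hA)
      (Nat.mul_ne_zero (by norm_num) (XSeries_e0_pos M').ne')
  have h2 : vE M' q A ζ oo (datXz M' q A) = 1 := XT.vC_oo_Xz A ζ
  rw [datNu, map_mul, map_mul, h2, mul_one]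
  exact lt_of_le_of_lt (mul_le_of_le_one_left' h0) h1

theorem vE_datNu_zr (νt : BC M' q A ζ) : vE M' q A ζ zr (datNu A ζ hq hqM νt) < 1 := by
  have h0 : vE M' q A ζ zr (νt : EC A (M' * q * q)) ≤ 1 := νt.2.2 zr
  have h1 : vE M' q A ζ zr (datXz M' q A) < 1 := by
    have : vE M' q A ζ zr (datXz M' q A) = XT.vq A q ^ XT.NX M' := XT.vC_zr_Xz hq hqM A ζ
    rw [this]
    exact pow_lt_one₀ zero_le (XT.vq_lt_one A hA)
      (Nat.mul_ne_zero (by norm_num) (XSeries_e0_pos M').ne')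
  have h2 : vE M' q A ζ zr (datXo A hq hqM) = 1 := XT.vC_zr_Xo hq hqM A ζ
  rw [datNu, map_mul, map_mul, h2, mul_one]
  exact lt_of_le_of_lt (mul_le_of_le_one_left' h0) h1

theorem isInt_datNu (νt : BC M' q A ζ) : IsInt (EH (IA A)) (tE M' q A) (datNu A ζ hq hqM νt) := by
  rw [isInt_E_iff]
  exact (νt.2.1.mul (XT.isInt_Xo hM hq hqM A hA (TH1.isInt_XF_inv hq hqM))).mul
    (XT.isInt_Xz hM hq hqM A hA (TH1.isInt_XF hq hqM))

theorem datC0_mem (νt : BC M' q A ζ)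
    (Dt : NS.Disc3 (BC M' q A ζ) (v3 (EC A (M' * q * q)) (vC M' q A ζ) i₀) oo (md ()) zr
      (q : BC M' q A ζ) νt (q - 1)) :
    algebraMap (EH (IA A)) (EC A (M' * q * q)) (piK q A) / datNu A ζ hq hqM νt ^ (q - 1)
      ∈ (vE M' q A ζ (md i₀)).integer := by
  rw [Valuation.mem_integer_iff, map_div₀, map_pow, vE_datNu_md A ζ hM hq hqM hA hζ i₀,
    algebraMap_piK A ζ (FQ2C.tC M' q)]
  have h : vE M' q A ζ (md i₀) (νt : EC A (M' * q * q)) ^ (q - 1)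
      = vE M' q A ζ (md i₀) ((q : BC M' q A ζ) : EC A (M' * q * q)) := Dt.νe
  rw [h]
  rcases eq_or_ne (vE M' q A ζ (md i₀) ((q : BC M' q A ζ) : EC A (M' * q * q))) 0 with h0 | h0
  · rw [h0, div_zero]; exact zero_le_one
  · rw [div_self h0]

/-- **THE CONCRETE DATUM OF THE COUNT.** -/
def datC (νt : BC M' q A ζ)
    (Dt : NS.Disc3 (BC M' q A ζ) (v3 (EC A (M' * q * q)) (vC M' q A ζ) i₀) oo (md ()) zr
      (q : BC M' q A ζ) νt (q - 1)) :
    P1.Dat (EH (IA A)) (EC A (M' * q * q)) (kA A) (ΓU A) where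
  vo := vE M' q A ζ oo
  vm := vE M' q A ζ (md i₀)
  vz := vE M' q A ζ zr
  ρo := rhoE M' q A ζ oo
  ρm := rhoE M' q A ζ (md i₀)
  ρz := rhoE M' q A ζ zr
  t := tE M' q A
  ϖ := piK q A
  ν₀ := datNu A ζ hq hqM νt
  e := q - 1
  R := (RP.RC A M').toSubring
  χ := 1 - (gS M' : ℤ)
  τo := xR (kA A) M' ^ (q * q + 1)
  τm := xR (kA A) M' ^ (1 + 1)
  τz := xR (kA A) M' ^ (q * q + 1)
  no := (q * q + 1) * mX M'
  nm := 2 * mX M'
  c0 := rhoE M' q A ζ (md i₀)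
    ⟨algebraMap (EH (IA A)) (EC A (M' * q * q)) (piK q A) / datNu A ζ hq hqM νt ^ (q - 1),
      datC0_mem A ζ hM hq hqM hA hζ i₀ νt Dt⟩
  Xo := datXo A hq hqM
  Xz := datXz M' q A
  n := 12 * e0 M'
  H := XT.HX M' q A
  h := (q - 1) * mX M'
  cf := datCf M' q A
  χ₂ := 1 - (gS (M' * q * q) : ℤ)
  eqm := fun a => eqE A ζ (md i₀) oo a
  eqz := fun a => eqE A ζ zr oo a
  cst := fun c => by
    obtain ⟨a, h⟩ := cstE (M' := M') A ζ hq hA c
    exact ⟨a, h oo, h (md i₀), h zr⟩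
  archo := archE A ζ hq hA oo
  archm := archE A ζ hq hA (md i₀)
  archz := archE A ζ hq hA zr
  kero := kerE A ζ oo
  kerm := kerE A ζ (md i₀)
  kerz := kerE A ζ zr
  ϖ_ne := piK_ne A
  ϖ_lt := piK_lt A ζ hA oo
  disco := fun z hz => by
    rw [algebraMap_piK A ζ (FQ2C.tC M' q)]
    exact Dt.uo z hz
  discz := fun z hz => by
    rw [algebraMap_piK A ζ (FQ2C.tC M' q)]
    exact Dt.uz z hz
  discm := fun z hz => by
    rw [vE_datNu_md A ζ hM hq hqM hA hζ i₀]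
    exact Dt.um z hz
  he := by have := hq.two_le; omega
  ν_pow := by
    rw [vE_datNu_md A ζ hM hq hqM hA hζ i₀, algebraMap_piK A ζ (FQ2C.tC M' q)]
    exact Dt.νe
  ν_int := isInt_datNu A ζ hM hq hqM hA hζ νt
  ν_o := vE_datNu_oo A ζ hM hq hqM hA hζ νt
  ν_z := vE_datNu_zr A ζ hM hq hqM hA hζ νt
  rc0 := ⟨datC0_mem A ζ hM hq hqM hA hζ i₀ νt Dt, rfl⟩
  rto := rtoE A ζ hM hq hqM hA hζ
  rtm := rtmE A ζ hM hq hqM hA hζ i₀
  rtz := rtzE A ζ hM hq hqM hA hζ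
  oτo := order_xR_pow A hM hq hqM hA _
  oτm := order_xR_pow A hM hq hqM hA _
  oτz := order_xR_pow A hM hq hqM hA _
  no_pos := Nat.mul_pos (Nat.succ_pos _) (mX_pos M')
  nm_pos := Nat.mul_pos (by norm_num) (mX_pos M')
  into := fun z φ hi hm hz h => intE A ζ hM hq hqM hA hζ i₀ oo z φ hi h.le_one hm hz h
  intm := fun z φ hi ho hz h => intE A ζ hM hq hqM hA hζ i₀ (md i₀) z φ hi ho h.le_one hz h
  intz := fun z φ hi ho hm h => intE A ζ hM hq hqM hA hζ i₀ zr z φ hi ho hm h.le_one h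
  surjm := fun φ hφ => by
    obtain ⟨z, hi, ho, hm, hz⟩ := surjαE A ζ hM hq hqM hA hζ φ hφ
    exact ⟨z, hi, ho.le_one, hz.le_one, hm i₀⟩
  surjz := fun φ hφ => by
    obtain ⟨z, hi, ho, hm, hz⟩ := surjγE A ζ hM hq hqM hA hζ φ hφ
    exact ⟨z, hi, ho.le_one, (hm i₀).le_one, hz⟩
  polo := fun z φ hi hm hz h => polE A ζ hM hq hqM hA hζ i₀ oo z φ hi h.le_one hm hz h
  polm := fun z φ hi ho hz h => polE A ζ hM hq hqM hA hζ i₀ (md i₀) z φ hi ho h.le_one hz h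
  polz := fun z φ hi ho hm h => polE A ζ hM hq hqM hA hζ i₀ zr z φ hi ho hm h.le_one h
  n_pos := Nat.mul_pos (by norm_num) (XSeries_e0_pos M')
  Xo_int := (isInt_E_iff A _ _).2 (XT.isInt_Xo hM hq hqM A hA (TH1.isInt_XF_inv hq hqM))
  Xo_inv := (isInt_E_iff A _ _).2 (XT.isInt_Xo_inv hM hq hqM A hA (TH1.isInt_XF hq hqM))
  Xo_o := by
    rw [vE_piK]
    exact XT.vC_oo_Xo hq hqM A ζ
  Xo_m := (rd_rhoE A ζ _).2 (XT.rd_md_Xo hq hqM A hA ζ hζ i₀)
  Xo_z := (rd_rhoE A ζ _).2 (XT.rd_zr_Xo hq hqM A ζ)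
  Xz_int := (isInt_E_iff A _ _).2 (XT.isInt_Xz hM hq hqM A hA (TH1.isInt_XF hq hqM))
  Xz_inv := (isInt_E_iff A _ _).2 (XT.isInt_Xz_inv hM hq hqM A hA (TH1.isInt_XF_inv hq hqM))
  Xz_z := by
    rw [vE_piK]
    exact XT.vC_zr_Xz hq hqM A ζ
  Xz_o := XT.vC_oo_Xz A ζ
  Xz_m := (rd_rhoE A ζ _).2 (XT.rd_md_Xz A ζ i₀)
  H_ne := XT.HX_ne_zero A
  oH := by
    rw [TH1.order_XR]
    have hq1 : 1 ≤ q := hq.one_lt.le
    push_cast [Nat.cast_sub hq1]
    ring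
  cf_inj := datCf_inj A
  cf_int := fun z hi ho hm hz n => datCf_int A ζ hM hq hqM hA hζ i₀ z hi ho hm hz n
  fin := finC A ζ hM hq hqM hA hζ
  ri := riC A ζ hM hq hqM hA hζ
  num := numC hM hq hqM
  deg := degTh_RR (RP.isCurve_RC M' q hM hq hqM A hA)

/-- `datC` lives on the concrete objects. -/
theorem mt_datC (νt : BC M' q A ζ)
    (Dt : NS.Disc3 (BC M' q A ζ) (v3 (EC A (M' * q * q)) (vC M' q A ζ) i₀) oo (md ()) zr
      (q : BC M' q A ζ) νt (q - 1)) : Mt (datC A ζ hM hq hqM hA hζ i₀ νt Dt) ζ i₀ :=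
  ⟨rfl, rfl, rfl, rfl, rfl⟩

end

end Fermat.Agent.CAR.P1.Conc
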