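import Fermat.Agent.CAR.P1.Conc.Val
import Fermat.Agent.CAR.XT.Int
import Fermat.Agent.CAR.TH1.Pl.Theta
import Fermat.Agent.CAR.TH1.Formal

/-!
# CAR / P1 / Conc / X : the modular units `X_∞`, `X_0` : the `X`-fields of `P1.Dat`

`XoE := ⟨XT.Xo M' q, _⟩`, `XzE := ⟨XT.Xz M' q, _⟩ : EC A (M' * q * q)`, `n := XT.NX M' = 12 * e0 M'`, `H := XT.HX M' q A = XR (kA A) M' q`,
`h := (q - 1) * mX M'`.
-/

set_option autoImplicit false
set_option linter.unusedSectionVars false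

open ModularCurve AlgebraicCurve

noncomputable section

namespace Fermat.Agent.CAR.P1.Conc

open Fermat.Agent.GR Fermat.Agent.GAL Fermat.Agent.GAL.KL Fermat.Agent.GAL.KLC Fermat.Agent.S24
open Fermat.Agent.TOR Fermat.Agent.TOR.T1
open Fermat.Agent.CAR.FQ2V Fermat.Agent.CAR.FQ2C Fermat.Agent.CAR.ON Fermat.Agent.CAR.DESC
open Fermat.Agent.CAR.BK Fermat.Agent.CAR.CNT Fermat.Agent.DSC Fermat.Agent.CAR.XT

variable {M' q : ℕ} [NeZero M'] [NeZero q] (A : ValuationSubring Qb) (ζ : Qbˣ)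

/-- `X_∞`. -/
def XoE (hq : q.Prime) (hqM : ¬ q ∣ M') (A : ValuationSubring Qb) : EC A (M' * q * q) :=
  ⟨XT.Xo M' q, Xo_mem_EC hq hqM A⟩

variable (M' q) in
/-- `X_0`. -/
def XzE (A : ValuationSubring Qb) : EC A (M' * q * q) := ⟨XT.Xz M' q, Xz_mem_EC A⟩

theorem coe_XoE (hq : q.Prime) (hqM : ¬ q ∣ M') :
    ((XoE hq hqM A : EC A (M' * q * q)) : FN (M' * q * q)) = XT.Xo M' q := rfl

theorem coe_XzE : ((XzE M' q A : EC A (M' * q * q)) : FN (M' * q * q)) = XT.Xz M' q := rfl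

theorem n_posC : 0 < 12 * e0 M' := Nat.mul_pos (by norm_num) (XSeries_e0_pos M')

theorem H_neC : XT.HX M' q A ≠ 0 := HX_ne_zero A

theorem oHC (hq : q.Prime) : (XT.HX M' q A).order = -(((q - 1) * mX M' : ℕ) : ℤ) := by
  rw [TH1.order_XR]
  push_cast [Nat.cast_sub hq.one_lt.le]
  ring

theorem w3_piK (i₀ : (ZMod q)ˣ) (j : ON.Idx Unit) :
    w3 M' q A ζ i₀ j (algebraMap (EH (IA A)) (EC A (M' * q * q)) (piK q A)) = vq A q := by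
  have e : ((algebraMap (EH (IA A)) (EC A (M' * q * q)) (piK q A) : EC A (M' * q * q)) :
      FN (M' * q * q)) = algebraMap Qb (FN (M' * q * q)) (q : Qb) := by
    rw [coe_piK, map_natCast]
  show vC M' q A ζ (l3 i₀ j) ((algebraMap (EH (IA A)) (EC A (M' * q * q)) (piK q A) :
    EC A (M' * q * q)) : FN (M' * q * q)) = _
  rw [e]
  exact vC_q A ζ _

variable (i₀ : (ZMod q)ˣ) (hM : AdmLevel M') (hq : q.Prime) (hqM : ¬ q ∣ M')
  (hA : A.LiesOverPrime q) (hζ : IsPrimitiveRoot ζ q)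

include hM hA in
theorem Xo_intC : IsInt (EH (IA A)) (tE M' q A) (XoE hq hqM A) :=
  (isInt_tE_iff A _).2 (isInt_Xo hM hq hqM A hA (TH1.isInt_XF_inv hq hqM))

include hM hA in
theorem Xo_invC : IsInt (EH (IA A)) (tE M' q A) (XoE hq hqM A)⁻¹ :=
  (isInt_tE_iff A _).2 (isInt_Xo_inv hM hq hqM A hA (TH1.isInt_XF hq hqM))

theorem Xo_oC : w3 M' q A ζ i₀ oo (XoE hq hqM A)
    = w3 M' q A ζ i₀ oo (algebraMap (EH (IA A)) (EC A (M' * q * q)) (piK q A)) ^ (12 * e0 M') := by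
  rw [w3_piK]
  exact vC_oo_Xo hq hqM A ζ

include hA hζ in
theorem Xo_mC : Rd (rho3 M' q A ζ i₀ (md ())) (XoE hq hqM A) (XT.HX M' q A) :=
  (rd_rho3_iff A ζ i₀ _).2 (rd_md_Xo hq hqM A hA ζ hζ i₀)

theorem Xo_zC : Rd (rho3 M' q A ζ i₀ zr) (XoE hq hqM A) (XT.HX M' q A) :=
  (rd_rho3_iff A ζ i₀ _).2 (rd_zr_Xo hq hqM A ζ)

include hM hq hqM hA in
theorem Xz_intC : IsInt (EH (IA A)) (tE M' q A) (XzE M' q A) :=
  (isInt_tE_iff A _).2 (isInt_Xz hM hq hqM A hA (TH1.isInt_XF hq hqM))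

include hM hq hqM hA in
theorem Xz_invC : IsInt (EH (IA A)) (tE M' q A) (XzE M' q A)⁻¹ :=
  (isInt_tE_iff A _).2 (isInt_Xz_inv hM hq hqM A hA (TH1.isInt_XF_inv hq hqM))

include hq hqM in
theorem Xz_zC : w3 M' q A ζ i₀ zr (XzE M' q A)
    = w3 M' q A ζ i₀ zr (algebraMap (EH (IA A)) (EC A (M' * q * q)) (piK q A)) ^ (12 * e0 M') := by
  rw [w3_piK]
  exact vC_zr_Xz hq hqM A ζ

theorem Xz_oC : w3 M' q A ζ i₀ oo (XzE M' q A) = 1 := vC_oo_Xz A ζ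

theorem Xz_mC : Rd (rho3 M' q A ζ i₀ (md ())) (XzE M' q A) (XT.HX M' q A) :=
  (rd_rho3_iff A ζ i₀ _).2 (rd_md_Xz A ζ i₀)

/-! extra facts used for `ν₀ := ν₁ * Xo * Xz` -/

include hA hζ in
theorem Xo_m_one : w3 M' q A ζ i₀ (md ()) (XoE hq hqM A) = 1 := vC_md_Xo hq hqM A hA ζ hζ i₀

theorem Xo_z_one : w3 M' q A ζ i₀ zr (XoE hq hqM A) = 1 := vC_zr_Xo hq hqM A ζ

theorem Xz_m_one : w3 M' q A ζ i₀ (md ()) (XzE M' q A) = 1 := vC_md_Xz A ζ i₀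

include hA in
theorem Xo_o_lt : w3 M' q A ζ i₀ oo (XoE hq hqM A) < 1 := by
  rw [Xo_oC A ζ i₀ hq hqM]
  exact pow_lt_one₀ zero_le (ϖ_ltC A ζ i₀ hA oo) (n_posC (M' := M')).ne'

include hq hqM hA in
theorem Xz_z_lt : w3 M' q A ζ i₀ zr (XzE M' q A) < 1 := by
  rw [Xz_zC A ζ i₀ hq hqM]
  exact pow_lt_one₀ zero_le (ϖ_ltC A ζ i₀ hA zr) (n_posC (M' := M')).ne'

end Fermat.Agent.CAR.P1.Conc
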