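import Fermat.Agent.CAR.P1.Conc.Val
import Fermat.Agent.CAR.P1.Conc.X
import Fermat.Agent.CAR.P1.Conc.Cst
import Fermat.Agent.CAR.P1.DegBridge
import Fermat.Agent.CAR.D3.Conc

/-!
# CAR / P1 / Conc / DatOf : assembly of the concrete datum of the count

`datOf … ν₀ c0 …` : all the fields of `P1.Dat` which do not involve `ν₀` are plugged in.
`exists_datC` : the datum exists (`ν₀` from `[D3]`).
-/

set_option autoImplicit false
set_option linter.unusedSectionVars false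

open ModularCurve AlgebraicCurve

noncomputable section

namespace Fermat.Agent.CAR.P1.Conc

open Fermat.Agent.GR Fermat.Agent.GAL Fermat.Agent.GAL.KL Fermat.Agent.GAL.KLC Fermat.Agent.S24
open Fermat.Agent.TOR Fermat.Agent.TOR.T1
open Fermat.Agent.CAR.FQ2V Fermat.Agent.CAR.FQ2C Fermat.Agent.CAR.ON Fermat.Agent.CAR.DESC
open Fermat.Agent.CAR.BK Fermat.Agent.CAR.CNT Fermat.Agent.DSC Fermat.Agent.CAR.XT

variable {M' q : ℕ} [NeZero M'] [NeZero q] (A : ValuationSubring Qb) (ζ : Qbˣ)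

/-- the datum of the count, given the uniformiser `ν₀` of the middle valuation. -/
def datOf (i₀ : (ZMod q)ˣ) (hM : AdmLevel M') (hq : q.Prime) (hqM : ¬ q ∣ M')
    (hA : A.LiesOverPrime q) (hζ : IsPrimitiveRoot ζ q)
    (ν₀ : EC A (M' * q * q)) (c0 : LaurentSeries (kA A))
    (disco : ∀ z : EC A (M' * q * q), w3 M' q A ζ i₀ oo z < 1 →
      w3 M' q A ζ i₀ oo z ≤ w3 M' q A ζ i₀ oo (algebraMap (EH (IA A)) (EC A (M' * q * q)) (piK q A)))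
    (discz : ∀ z : EC A (M' * q * q), w3 M' q A ζ i₀ zr z < 1 →
      w3 M' q A ζ i₀ zr z ≤ w3 M' q A ζ i₀ zr (algebraMap (EH (IA A)) (EC A (M' * q * q)) (piK q A)))
    (discm : ∀ z : EC A (M' * q * q), w3 M' q A ζ i₀ (md ()) z < 1 →
      w3 M' q A ζ i₀ (md ()) z ≤ w3 M' q A ζ i₀ (md ()) ν₀)
    (ν_pow : w3 M' q A ζ i₀ (md ()) ν₀ ^ (q - 1)
      = w3 M' q A ζ i₀ (md ()) (algebraMap (EH (IA A)) (EC A (M' * q * q)) (piK q A)))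
    (ν_int : IsInt (EH (IA A)) (tE M' q A) ν₀)
    (ν_o : w3 M' q A ζ i₀ oo ν₀ < 1) (ν_z : w3 M' q A ζ i₀ zr ν₀ < 1)
    (rc0 : Rd (rho3 M' q A ζ i₀ (md ()))
      (algebraMap (EH (IA A)) (EC A (M' * q * q)) (piK q A) / ν₀ ^ (q - 1)) c0) :
    P1.Dat (EH (IA A)) (EC A (M' * q * q)) (kA A) (ΓU A) where
  vo := w3 M' q A ζ i₀ oo
  vm := w3 M' q A ζ i₀ (md ())
  vz := w3 M' q A ζ i₀ zr
  ρo := rho3 M' q A ζ i₀ oo
  ρm := rho3 M' q A ζ i₀ (md ())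
  ρz := rho3 M' q A ζ i₀ zr
  t := tE M' q A
  ϖ := piK q A
  ν₀ := ν₀
  e := q - 1
  R := (RP.RC A M').toSubring
  χ := 1 - (gS M' : ℤ)
  τo := xR (kA A) M' ^ (q * q + 1)
  τm := xR (kA A) M' ^ 2
  τz := xR (kA A) M' ^ (q * q + 1)
  no := (q * q + 1) * mX M'
  nm := 2 * mX M'
  c0 := c0
  Xo := XoE hq hqM A
  Xz := XzE M' q A
  n := 12 * e0 M'
  H := XT.HX M' q A
  h := (q - 1) * mX M'
  cf := cfC M' q A
  χ₂ := 1 - (gS (M' * q * q) : ℤ)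
  eqm := eqmC A ζ i₀
  eqz := eqzC A ζ i₀
  cst := cstC A ζ i₀ hq hA
  archo := archC A ζ i₀ hq hA oo
  archm := archC A ζ i₀ hq hA (md ())
  archz := archC A ζ i₀ hq hA zr
  kero := kerC A ζ i₀ oo
  kerm := kerC A ζ i₀ (md ())
  kerz := kerC A ζ i₀ zr
  ϖ_ne := ϖ_neC A
  ϖ_lt := ϖ_ltC A ζ i₀ hA oo
  disco := disco
  discz := discz
  discm := discm
  he := by have := hq.two_le; omega
  ν_pow := ν_pow
  ν_int := ν_int
  ν_o := ν_o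
  ν_z := ν_z
  rc0 := rc0
  rto := rtoC A ζ i₀ hM hq hqM hA hζ
  rtm := rtmC A ζ i₀ hM hq hqM hA hζ
  rtz := rtzC A ζ i₀ hM hq hqM hA hζ
  oτo := oτoC A hM hq hqM hA
  oτm := oτmC A hM hq hqM hA
  oτz := oτoC A hM hq hqM hA
  no_pos := no_posC A hM hq hqM hA
  nm_pos := nm_posC A hM hq hqM hA
  into := intoC A ζ i₀ hM hq hqM hA hζ
  intm := intmC A ζ i₀ hM hq hqM hA hζ
  intz := intzC A ζ i₀ hM hq hqM hA hζ
  surjm := surjmC A ζ i₀ hM hq hqM hA hζ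
  surjz := surjzC A ζ i₀ hM hq hqM hA hζ
  polo := poloC A ζ i₀ hM hq hqM hA hζ
  polm := polmC A ζ i₀ hM hq hqM hA hζ
  polz := polzC A ζ i₀ hM hq hqM hA hζ
  n_pos := n_posC
  Xo_int := Xo_intC A hM hq hqM hA
  Xo_inv := Xo_invC A hM hq hqM hA
  Xo_o := Xo_oC A ζ i₀ hq hqM
  Xo_m := Xo_mC A ζ i₀ hq hqM hA hζ
  Xo_z := Xo_zC A ζ i₀ hq hqM
  Xz_int := Xz_intC A hM hq hqM hA
  Xz_inv := Xz_invC A hM hq hqM hA
  Xz_z := Xz_zC A ζ i₀ hq hqM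
  Xz_o := Xz_oC A ζ i₀
  Xz_m := Xz_mC A ζ i₀
  H_ne := H_neC A
  oH := oHC A hq
  cf_inj := cf_injC A
  cf_int := cf_intC A ζ i₀ hM hq hqM hA hζ
  fin := finC A ζ hM hq hqM hA hζ
  ri := riC A ζ hM hq hqM hA hζ
  num := numC hM hq hqM
  deg := P1.degTh_RR (RP.isCurve_RC M' q hM hq hqM A hA)

section Nu

variable (i₀ : (ZMod q)ˣ) (hM : AdmLevel M') (hq : q.Prime) (hqM : ¬ q ∣ M')
  (hA : A.LiesOverPrime q) (hζ : IsPrimitiveRoot ζ q)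
include hM hq hqM hA hζ

/-- the uniformiser `ν₀` of the middle valuation (from `[D3]`). -/
theorem datOf_exists_nu : ∃ (ν₀ : EC A (M' * q * q)) (c0 : LaurentSeries (kA A)),
    (∀ z : EC A (M' * q * q), w3 M' q A ζ i₀ oo z < 1 →
      w3 M' q A ζ i₀ oo z
        ≤ w3 M' q A ζ i₀ oo (algebraMap (EH (IA A)) (EC A (M' * q * q)) (piK q A))) ∧
    (∀ z : EC A (M' * q * q), w3 M' q A ζ i₀ zr z < 1 →
      w3 M' q A ζ i₀ zr z
        ≤ w3 M' q A ζ i₀ zr (algebraMap (EH (IA A)) (EC A (M' * q * q)) (piK q A))) ∧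
    (∀ z : EC A (M' * q * q), w3 M' q A ζ i₀ (md ()) z < 1 →
      w3 M' q A ζ i₀ (md ()) z ≤ w3 M' q A ζ i₀ (md ()) ν₀) ∧
    (w3 M' q A ζ i₀ (md ()) ν₀ ^ (q - 1)
      = w3 M' q A ζ i₀ (md ()) (algebraMap (EH (IA A)) (EC A (M' * q * q)) (piK q A))) ∧
    IsInt (EH (IA A)) (tE M' q A) ν₀ ∧
    w3 M' q A ζ i₀ oo ν₀ < 1 ∧ w3 M' q A ζ i₀ zr ν₀ < 1 ∧
    Rd (rho3 M' q A ζ i₀ (md ()))
      (algebraMap (EH (IA A)) (EC A (M' * q * q)) (piK q A) / ν₀ ^ (q - 1)) c0 := by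
  obtain ⟨νt, -, Dt⟩ := D3.exists_disc3C A ζ hM hq hqM hA hζ i₀
  obtain ⟨ν₁, -, h1, h2, D⟩ := D3.exists_small (BK.vertC A ζ hM hq hqM hA hζ i₀)
    (o := oo) (m := md ()) (z := zr) (by decide) (by decide) Dt
  have hπ : (((q : BC M' q A ζ) : BC M' q A ζ) : EC A (M' * q * q))
      = algebraMap (EH (IA A)) (EC A (M' * q * q)) (piK q A) := by
    rw [piK, map_natCast]
    push_cast
    rfl
  have hνe := D.νe
  rw [hπ] at hνe
  have hone : w3 M' q A ζ i₀ (md ())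
      (algebraMap (EH (IA A)) (EC A (M' * q * q)) (piK q A) / (ν₁ : EC A (M' * q * q)) ^ (q - 1))
      = 1 := by
    rw [map_div₀, map_pow, hνe]
    refine div_self ?_
    rw [Ne, map_eq_zero, map_eq_zero]
    exact piK_ne A
  obtain ⟨c0, hc0⟩ := exists_rd (ρ := rho3 M' q A ζ i₀ (md ())) hone.le
  refine ⟨ν₁, c0, ?_, ?_, D.um, hνe, (isInt_tE_iff A _).2 ν₁.2.1, h1, h2, hc0⟩
  · rw [← hπ]; exact D.uo
  · rw [← hπ]; exact D.uz

end Nu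

/-- **the concrete datum of the count.** -/
def datOfC (i₀ : (ZMod q)ˣ) (hM : AdmLevel M') (hq : q.Prime) (hqM : ¬ q ∣ M')
    (hA : A.LiesOverPrime q) (hζ : IsPrimitiveRoot ζ q) :
    P1.Dat (EH (IA A)) (EC A (M' * q * q)) (kA A) (ΓU A) :=
  datOf A ζ i₀ hM hq hqM hA hζ
    (datOf_exists_nu A ζ i₀ hM hq hqM hA hζ).choose
    (datOf_exists_nu A ζ i₀ hM hq hqM hA hζ).choose_spec.choose
    (datOf_exists_nu A ζ i₀ hM hq hqM hA hζ).choose_spec.choose_spec.1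
    (datOf_exists_nu A ζ i₀ hM hq hqM hA hζ).choose_spec.choose_spec.2.1
    (datOf_exists_nu A ζ i₀ hM hq hqM hA hζ).choose_spec.choose_spec.2.2.1
    (datOf_exists_nu A ζ i₀ hM hq hqM hA hζ).choose_spec.choose_spec.2.2.2.1
    (datOf_exists_nu A ζ i₀ hM hq hqM hA hζ).choose_spec.choose_spec.2.2.2.2.1
    (datOf_exists_nu A ζ i₀ hM hq hqM hA hζ).choose_spec.choose_spec.2.2.2.2.2.1
    (datOf_exists_nu A ζ i₀ hM hq hqM hA hζ).choose_spec.choose_spec.2.2.2.2.2.2.1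
    (datOf_exists_nu A ζ i₀ hM hq hqM hA hζ).choose_spec.choose_spec.2.2.2.2.2.2.2

section Simp

variable (i₀ : (ZMod q)ˣ) (hM : AdmLevel M') (hq : q.Prime) (hqM : ¬ q ∣ M')
  (hA : A.LiesOverPrime q) (hζ : IsPrimitiveRoot ζ q)

theorem datOfC_vo : (datOfC A ζ i₀ hM hq hqM hA hζ).vo
    = v3 (EC A (M' * q * q)) (vC M' q A ζ) i₀ oo := rfl
theorem datOfC_vm : (datOfC A ζ i₀ hM hq hqM hA hζ).vm
    = v3 (EC A (M' * q * q)) (vC M' q A ζ) i₀ (md ()) := rfl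
theorem datOfC_vz : (datOfC A ζ i₀ hM hq hqM hA hζ).vz
    = v3 (EC A (M' * q * q)) (vC M' q A ζ) i₀ zr := rfl
theorem datOfC_t : (datOfC A ζ i₀ hM hq hqM hA hζ).t = tE M' q A := rfl
theorem datOfC_ϖ : (datOfC A ζ i₀ hM hq hqM hA hζ).ϖ = (q : EH (IA A)) := rfl
theorem datOfC_e : (datOfC A ζ i₀ hM hq hqM hA hζ).e = q - 1 := rfl
theorem datOfC_ρm : (datOfC A ζ i₀ hM hq hqM hA hζ).ρm = rho3 M' q A ζ i₀ (md ()) := rfl
theorem datOfC_τm : (datOfC A ζ i₀ hM hq hqM hA hζ).τm = xR (kA A) M' ^ 2 := rfl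
theorem datOfC_n : (datOfC A ζ i₀ hM hq hqM hA hζ).n = 12 * e0 M' := rfl

end Simp

end Fermat.Agent.CAR.P1.Conc
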