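import Fermat.Agent.CAR.P1.Conc.RI
import Fermat.Agent.CAR.BK.Conc
import Fermat.Agent.CAR.BK.Red
import Fermat.Agent.GAL.KLB.Ord
import Fermat.Agent.DSC.Teich

/-!
# CAR / P1 / Conc / Val : valuations and reductions on `E = EC A (M' * q * q)` (as a type) and the "chart" fields of `P1.Dat`

`vE i := (vC i).comap E.subtype` (`= BK.v3` for the three indices), `rhoE i`, dictionary `rd_rhoE`, `isInt_E_iff`.
Fields: `eqm eqz cst archo archm archz kero kerm kerz rto rtm rtz oτo oτm oτz no_pos nm_pos into intm intz surjm surjz polo polm polz`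
and `ϖ_ne`, `ϖ_lt` for `ϖ = q`.
-/

set_option autoImplicit false
set_option linter.unusedSectionVars false

open ModularCurve AlgebraicCurve

noncomputable section

namespace Fermat.Agent.CAR.P1.Conc

open Fermat.Agent.GR Fermat.Agent.GAL Fermat.Agent.GAL.KL Fermat.Agent.GAL.KLC Fermat.Agent.S24
open Fermat.Agent.TOR Fermat.Agent.TOR.T1
open Fermat.Agent.CAR.FQ2V Fermat.Agent.CAR.FQ2C Fermat.Agent.CAR.ON Fermat.Agent.CAR.DESC
open Fermat.Agent.CAR.BK Fermat.Agent.CAR.CNT Fermat.Agent.DSC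

variable (M' q : ℕ) [NeZero M'] [NeZero q] (A : ValuationSubring Qb) (ζ : Qbˣ)

/-- the valuations of `E`. -/
def vE (i : ON.Idx (ZMod q)ˣ) : Valuation (EC A (M' * q * q)) (ΓU A) :=
  (vC M' q A ζ i).comap (EC A (M' * q * q)).subtype

/-- the reduction maps of `E`. -/
def rhoE (i : ON.Idx (ZMod q)ˣ) : (vE M' q A ζ i).integer →+* LaurentSeries (kA A) :=
  (rhoC M' q A ζ i).comp
    { toFun := fun z => ⟨((z : EC A (M' * q * q)) : FN (M' * q * q)), z.2⟩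
      map_one' := rfl
      map_mul' := fun _ _ => rfl
      map_zero' := rfl
      map_add' := fun _ _ => rfl }

variable {M' q}

@[simp] theorem vE_apply (i : ON.Idx (ZMod q)ˣ) (z : EC A (M' * q * q)) :
    vE M' q A ζ i z = vC M' q A ζ i (z : FN (M' * q * q)) := rfl

theorem vE_eq_v3 (i₀ : (ZMod q)ˣ) (j : ON.Idx Unit) :
    vE M' q A ζ (l3 i₀ j) = v3 (EC A (M' * q * q)) (vC M' q A ζ) i₀ j := rfl

theorem rd_rhoE (i : ON.Idx (ZMod q)ˣ) {z : EC A (M' * q * q)} {φ : LaurentSeries (kA A)} :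
    Rd (rhoE M' q A ζ i) z φ ↔ Rd (rhoC M' q A ζ i) (z : FN (M' * q * q)) φ :=
  ⟨fun ⟨h, e⟩ => ⟨h, e⟩, fun ⟨h, e⟩ => ⟨h, e⟩⟩

theorem isInt_E_iff (u z : EC A (M' * q * q)) :
    IsInt (EH (IA A)) u z ↔ IsInt Qb (u : FN (M' * q * q)) (z : FN (M' * q * q)) :=
  isInt_EH_iff u z

theorem coe_algebraMap_E (a : EH (IA A)) :
    ((algebraMap (EH (IA A)) (EC A (M' * q * q)) a : EC A (M' * q * q)) : FN (M' * q * q))
      = algebraMap Qb (FN (M' * q * q)) (a : Qb) := rfl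

/-- **fields `eqm`, `eqz`.** -/
theorem eqE (i j : ON.Idx (ZMod q)ˣ) (a : EH (IA A)) :
    vE M' q A ζ i (algebraMap (EH (IA A)) (EC A (M' * q * q)) a)
      = vE M' q A ζ j (algebraMap (EH (IA A)) (EC A (M' * q * q)) a) :=
  vC_algebraMap A ζ i j (a : Qb)

theorem rd_const (i : ON.Idx (ZMod q)ˣ) (c : A) :
    Rd (rhoC M' q A ζ i) (algebraMap Qb (FN (M' * q * q)) (c : Qb))
      (HahnSeries.C (IsLocalRing.residue A c)) := by
  rw [FQ2C.rd_iff]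
  have e : (famC M' q ζ i).hom (algebraMap Qb (FN (M' * q * q)) (c : Qb)) = HahnSeries.C (c : Qb) := by
    have := congrArg (fun z : GField Qb => (z : LaurentSeries Qb))
      ((famC M' q ζ i).lift_algebraMap (c : Qb))
    simpa using this
  rw [e]
  exact hasRed_C A c

/-- **field `cst`.** -/
theorem cstE (hq : q.Prime) (hA : A.LiesOverPrime q) (c : kA A) :
    ∃ a : EH (IA A), ∀ i, Rd (rhoE M' q A ζ i) (algebraMap (EH (IA A)) (EC A (M' * q * q)) a)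
      (HahnSeries.C c) := by
  obtain ⟨a, ha, haA, rfl⟩ := exists_lift_EH_inertia hq hA c
  exact ⟨⟨a, ha⟩, fun i => (rd_rhoE A ζ i).2 (rd_const A ζ i ⟨a, haA⟩)⟩

/-- **fields `archo`, `archm`, `archz`.** -/
theorem archE (hq : q.Prime) (hA : A.LiesOverPrime q) (i : ON.Idx (ZMod q)ˣ) :
    Arch (vE M' q A ζ i) :=
  fun x hx γ hγ => arch_C A ζ hq hA i (x : FN (M' * q * q)) hx γ hγ

/-- **fields `kero`, `kerm`, `kerz`.** -/
theorem kerE (i : ON.Idx (ZMod q)ˣ) (z : (vE M' q A ζ i).integer) :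
    rhoE M' q A ζ i z = 0 ↔ vE M' q A ζ i (z : EC A (M' * q * q)) < 1 :=
  (isRed_C A ζ i).ker ⟨((z : EC A (M' * q * q)) : FN (M' * q * q)), z.2⟩

/-- the uniformiser `ϖ = q` of `K`. -/
def piK (q : ℕ) (A : ValuationSubring Qb) : EH (IA A) := (q : EH (IA A))

theorem piK_ne : piK q A ≠ 0 := Nat.cast_ne_zero.2 (NeZero.ne q)

theorem coe_piK : ((algebraMap (EH (IA A)) (EC A (M' * q * q)) (piK q A) : EC A (M' * q * q)) :
    FN (M' * q * q)) = (q : FN (M' * q * q)) := by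
  rw [piK, map_natCast]; rfl

/-- **field `ϖ_lt`** (for all indices). -/
theorem piK_lt (hA : A.LiesOverPrime q) (i : ON.Idx (ZMod q)ˣ) :
    vE M' q A ζ i (algebraMap (EH (IA A)) (EC A (M' * q * q)) (piK q A)) < 1 := by
  rw [vE_apply, coe_piK]
  exact vOf_prime_lt_one A _ hA

section

variable (hM : AdmLevel M') (hq : q.Prime) (hqM : ¬ q ∣ M') (hA : A.LiesOverPrime q)
  (hζ : IsPrimitiveRoot ζ q)
include hM hq hqM hA hζ

/-- **field `rto`.** -/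
theorem rtoE : Rd (rhoE M' q A ζ oo) (tE M' q A) (xR (kA A) M' ^ (q * q + 1)) :=
  (rd_rhoE A ζ oo).2 (rd_tC_oo A ζ hM hq hqM hA hζ)

/-- **field `rtz`.** -/
theorem rtzE : Rd (rhoE M' q A ζ zr) (tE M' q A) (xR (kA A) M' ^ (q * q + 1)) :=
  (rd_rhoE A ζ zr).2 (rd_tC_zr A ζ hM hq hqM hA hζ)

/-- **field `rtm`.** -/
theorem rtmE (c : (ZMod q)ˣ) : Rd (rhoE M' q A ζ (md c)) (tE M' q A) (xR (kA A) M' ^ (1 + 1)) :=
  (rd_rhoE A ζ (md c)).2 (rd_tC_md A ζ hM hq hqM hA hζ c)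

omit hζ in
/-- **fields `oτo`, `oτm`, `oτz`.** -/
theorem order_xR_pow (n : ℕ) : (xR (kA A) M' ^ n).order = -((n * mX M' : ℕ) : ℤ) := by
  rw [HahnSeries.order_pow, (xDatC A hM hq hqM hA).ox]
  push_cast
  simp

/-- all valuations of the family are `≤ 1` as soon as the three are. -/
theorem all_le_one (i₀ : (ZMod q)ˣ) {z : EC A (M' * q * q)} (ho : vE M' q A ζ oo z ≤ 1)
    (hm : vE M' q A ζ (md i₀) z ≤ 1) (hz : vE M' q A ζ zr z ≤ 1) (j : ON.Idx (ZMod q)ˣ) :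
    vC M' q A ζ j (z : FN (M' * q * q)) ≤ 1 := by
  rcases j with _ | _ | j
  · exact ho
  · exact hz
  · exact md_le_one (chartC A ζ hM hq hqM hA hζ) z.2 i₀ j hm

/-- **fields `into`, `intm`, `intz`** (uniform in the index). -/
theorem intE (i₀ : (ZMod q)ˣ) (i : ON.Idx (ZMod q)ˣ) (z : EC A (M' * q * q))
    (φ : LaurentSeries (kA A)) (hi : IsInt (EH (IA A)) (tE M' q A) z) (ho : vE M' q A ζ oo z ≤ 1)
    (hm : vE M' q A ζ (md i₀) z ≤ 1) (hz : vE M' q A ζ zr z ≤ 1) (h : Rd (rhoE M' q A ζ i) z φ) :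
    φ ∈ (RP.RC A M').toSubring := by
  have C := chartC A ζ hM hq hqM hA hζ
  rw [rd_rhoE] at h
  show φ ∈ RP.RC A M'
  rw [RP.mem_RR]
  exact ⟨(BK.mem_Fbar_iff (isRed A M')).2 (C.res _ z.2 i φ h),
    C.ir _ i φ ((isInt_E_iff A _ _).1 hi) (all_le_one A ζ hM hq hqM hA hζ i₀ ho hm hz) h⟩

/-- **fields `polo`, `polm`, `polz`** (uniform in the index). -/
theorem polE (i₀ : (ZMod q)ˣ) (i : ON.Idx (ZMod q)ˣ) (z : EC A (M' * q * q))
    (φ : LaurentSeries (kA A)) (hi : IsInt (EH (IA A)) (tE M' q A)⁻¹ z)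
    (ho : vE M' q A ζ oo z ≤ 1) (hm : vE M' q A ζ (md i₀) z ≤ 1) (hz : vE M' q A ζ zr z ≤ 1)
    (h : Rd (rhoE M' q A ζ i) z φ) : ∀ n : ℤ, n < 0 → φ.coeff n = 0 := by
  have C := chartC_inv A ζ hM hq hqM hA hζ
  rw [rd_rhoE] at h
  have h1 : IsInt (kA A) (xR (kA A) M')⁻¹ φ :=
    C.ir _ i φ ((isInt_E_iff A _ _).1 hi) (all_le_one A ζ hM hq hqM hA hζ i₀ ho hm hz) h
  refine KLB.coeff_eq_zero_of_isInt ?_ h1
  intro n hn
  have h0 := ON.xi_ne_zero (xDatC A hM hq hqM hA)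
  have h2 : (xR (kA A) M' * (xR (kA A) M')⁻¹).order = 0 := by
    rw [mul_inv_cancel₀ h0, HahnSeries.order_one]
  rw [HahnSeries.order_mul h0 (inv_ne_zero h0), (xDatC A hM hq hqM hA).ox] at h2
  exact HahnSeries.coeff_eq_zero_of_lt_order (by omega)

/-- lifts by `α`: **field `surjm`** (also gives the reduction at `∞`). -/
theorem surjαE (φ : LaurentSeries (kA A)) (hφ : φ ∈ (RP.RC A M').toSubring) :
    ∃ z : EC A (M' * q * q), IsInt (EH (IA A)) (tE M' q A) z ∧ Rd (rhoE M' q A ζ oo) z φ ∧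
      (∀ c, Rd (rhoE M' q A ζ (md c)) z φ) ∧
      Rd (rhoE M' q A ζ zr) z (qExpand (kA A) q (qExpand (kA A) q φ)) := by
  have C := chartC A ζ hM hq hqM hA hζ
  have H := lvl2 A ζ hq hqM hA hζ
  have hφ' : φ ∈ RP.RC A M' := hφ
  rw [RP.mem_RR] at hφ'
  obtain ⟨c, hc⟩ := (BK.mem_Fbar_iff (isRed A M')).1 hφ'.1
  obtain ⟨c', hc'E, hi, hr⟩ := C.lift c φ hc hφ'.2
  refine ⟨⟨al M' q c', C.αE c' hc'E⟩, (isInt_E_iff A _ _).2 (C.intα c' hi), ?_, fun c => ?_, ?_⟩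
  · exact (rd_rhoE A ζ _).2 (H.ooα c' φ hr)
  · exact (rd_rhoE A ζ _).2 (H.mdα c c' φ hr)
  · exact (rd_rhoE A ζ _).2 (H.zrα c' φ hr)

/-- lifts by `γ`: **field `surjz`.** -/
theorem surjγE (φ : LaurentSeries (kA A)) (hφ : φ ∈ (RP.RC A M').toSubring) :
    ∃ z : EC A (M' * q * q), IsInt (EH (IA A)) (tE M' q A) z ∧
      Rd (rhoE M' q A ζ oo) z (qExpand (kA A) q (qExpand (kA A) q φ)) ∧
      (∀ c, Rd (rhoE M' q A ζ (md c)) z φ) ∧ Rd (rhoE M' q A ζ zr) z φ := by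
  have C := chartC A ζ hM hq hqM hA hζ
  have H := lvl2 A ζ hq hqM hA hζ
  have hφ' : φ ∈ RP.RC A M' := hφ
  rw [RP.mem_RR] at hφ'
  obtain ⟨c, hc⟩ := (BK.mem_Fbar_iff (isRed A M')).1 hφ'.1
  obtain ⟨c', hc'E, hi, hr⟩ := C.lift c φ hc hφ'.2
  refine ⟨⟨ga M' q c', C.γE c' hc'E⟩, (isInt_E_iff A _ _).2 (C.intγ c' hi), ?_, fun c => ?_, ?_⟩
  · exact (rd_rhoE A ζ _).2 (H.ooγ c' φ hr)
  · exact (rd_rhoE A ζ _).2 (H.mdγ c c' φ hr)
  · exact (rd_rhoE A ζ _).2 (H.zrγ c' φ hr)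

end

/-! ## the fields of `P1.Dat`, verbatim, for `vo vm vz := BK.v3 (EC A _) (vC M' q A ζ) i₀ oo / (md ()) / zr` -/

section Fields

variable (M' q) in
/-- the three valuations (LITERALLY `BK.v3`). -/
abbrev w3 (i₀ : (ZMod q)ˣ) (j : ON.Idx Unit) : Valuation (EC A (M' * q * q)) (ΓU A) :=
  v3 (EC A (M' * q * q)) (vC M' q A ζ) i₀ j

variable (M' q) in
/-- the three reduction maps. -/
def rho3 (i₀ : (ZMod q)ˣ) (j : ON.Idx Unit) :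
    (w3 M' q A ζ i₀ j).integer →+* LaurentSeries (kA A) := rhoE M' q A ζ (l3 i₀ j)

theorem rd_rho3_iff (i₀ : (ZMod q)ˣ) (j : ON.Idx Unit) {z : EC A (M' * q * q)}
    {φ : LaurentSeries (kA A)} :
    Rd (rho3 M' q A ζ i₀ j) z φ ↔ Rd (rhoC M' q A ζ (l3 i₀ j)) (z : FN (M' * q * q)) φ :=
  rd_rhoE A ζ (l3 i₀ j)

theorem isInt_tE_iff (z : EC A (M' * q * q)) :
    IsInt (EH (IA A)) (tE M' q A) z ↔ IsInt Qb (FQ2C.tC M' q) (z : FN (M' * q * q)) :=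
  isInt_E_iff A _ _

theorem isInt_tE_inv_iff (z : EC A (M' * q * q)) :
    IsInt (EH (IA A)) (tE M' q A)⁻¹ z ↔ IsInt Qb (FQ2C.tC M' q)⁻¹ (z : FN (M' * q * q)) :=
  isInt_E_iff A _ _

variable (i₀ : (ZMod q)ˣ)

theorem eqmC (a : EH (IA A)) :
    w3 M' q A ζ i₀ (md ()) (algebraMap (EH (IA A)) (EC A (M' * q * q)) a)
      = w3 M' q A ζ i₀ oo (algebraMap (EH (IA A)) (EC A (M' * q * q)) a) := eqE A ζ _ _ a

theorem eqzC (a : EH (IA A)) :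
    w3 M' q A ζ i₀ zr (algebraMap (EH (IA A)) (EC A (M' * q * q)) a)
      = w3 M' q A ζ i₀ oo (algebraMap (EH (IA A)) (EC A (M' * q * q)) a) := eqE A ζ _ _ a

theorem cstC (hq : q.Prime) (hA : A.LiesOverPrime q) (c : kA A) :
    ∃ a : EH (IA A),
      Rd (rho3 M' q A ζ i₀ oo) (algebraMap (EH (IA A)) (EC A (M' * q * q)) a) (HahnSeries.C c) ∧
      Rd (rho3 M' q A ζ i₀ (md ())) (algebraMap (EH (IA A)) (EC A (M' * q * q)) a)
        (HahnSeries.C c) ∧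
      Rd (rho3 M' q A ζ i₀ zr) (algebraMap (EH (IA A)) (EC A (M' * q * q)) a) (HahnSeries.C c) := by
  obtain ⟨a, ha⟩ := cstE (M' := M') A ζ hq hA c
  exact ⟨a, ha _, ha _, ha _⟩

theorem archC (hq : q.Prime) (hA : A.LiesOverPrime q) (j : ON.Idx Unit) :
    Arch (w3 M' q A ζ i₀ j) := archE A ζ hq hA _

theorem kerC (j : ON.Idx Unit) (z : (w3 M' q A ζ i₀ j).integer) :
    rho3 M' q A ζ i₀ j z = 0 ↔ w3 M' q A ζ i₀ j (z : EC A (M' * q * q)) < 1 := kerE A ζ _ z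

theorem ϖ_neC : piK q A ≠ 0 := piK_ne A

theorem ϖ_ltC (hA : A.LiesOverPrime q) (j : ON.Idx Unit) :
    w3 M' q A ζ i₀ j (algebraMap (EH (IA A)) (EC A (M' * q * q)) (piK q A)) < 1 :=
  piK_lt A ζ hA _

variable (hM : AdmLevel M') (hq : q.Prime) (hqM : ¬ q ∣ M') (hA : A.LiesOverPrime q)
  (hζ : IsPrimitiveRoot ζ q)
include hM hq hqM hA hζ

theorem rtoC : Rd (rho3 M' q A ζ i₀ oo) (tE M' q A) (xR (kA A) M' ^ (q * q + 1)) :=
  rtoE A ζ hM hq hqM hA hζ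

theorem rtmC : Rd (rho3 M' q A ζ i₀ (md ())) (tE M' q A) (xR (kA A) M' ^ 2) :=
  rtmE A ζ hM hq hqM hA hζ i₀

theorem rtzC : Rd (rho3 M' q A ζ i₀ zr) (tE M' q A) (xR (kA A) M' ^ (q * q + 1)) :=
  rtzE A ζ hM hq hqM hA hζ

omit hζ in
theorem oτoC : (xR (kA A) M' ^ (q * q + 1)).order = -(((q * q + 1) * mX M' : ℕ) : ℤ) :=
  order_xR_pow A hM hq hqM hA _

omit hζ in
theorem oτmC : (xR (kA A) M' ^ 2).order = -((2 * mX M' : ℕ) : ℤ) :=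
  order_xR_pow A hM hq hqM hA _

omit hζ in
theorem no_posC : 0 < (q * q + 1) * mX M' :=
  Nat.mul_pos (Nat.succ_pos _) (xDatC A hM hq hqM hA).m_pos

omit hζ in
theorem nm_posC : 0 < 2 * mX M' := Nat.mul_pos two_pos (xDatC A hM hq hqM hA).m_pos

theorem intoC (z : EC A (M' * q * q)) (φ : LaurentSeries (kA A))
    (hi : IsInt (EH (IA A)) (tE M' q A) z) (hm : w3 M' q A ζ i₀ (md ()) z ≤ 1)
    (hz : w3 M' q A ζ i₀ zr z ≤ 1) (h : Rd (rho3 M' q A ζ i₀ oo) z φ) :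
    φ ∈ (RP.RC A M').toSubring :=
  intE A ζ hM hq hqM hA hζ i₀ oo z φ hi h.le_one hm hz h

theorem intmC (z : EC A (M' * q * q)) (φ : LaurentSeries (kA A))
    (hi : IsInt (EH (IA A)) (tE M' q A) z) (ho : w3 M' q A ζ i₀ oo z ≤ 1)
    (hz : w3 M' q A ζ i₀ zr z ≤ 1) (h : Rd (rho3 M' q A ζ i₀ (md ())) z φ) :
    φ ∈ (RP.RC A M').toSubring :=
  intE A ζ hM hq hqM hA hζ i₀ (md i₀) z φ hi ho h.le_one hz h

theorem intzC (z : EC A (M' * q * q)) (φ : LaurentSeries (kA A))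
    (hi : IsInt (EH (IA A)) (tE M' q A) z) (ho : w3 M' q A ζ i₀ oo z ≤ 1)
    (hm : w3 M' q A ζ i₀ (md ()) z ≤ 1) (h : Rd (rho3 M' q A ζ i₀ zr) z φ) :
    φ ∈ (RP.RC A M').toSubring :=
  intE A ζ hM hq hqM hA hζ i₀ zr z φ hi ho hm h.le_one h

theorem surjmC (φ : LaurentSeries (kA A)) (hφ : φ ∈ (RP.RC A M').toSubring) :
    ∃ z : EC A (M' * q * q), IsInt (EH (IA A)) (tE M' q A) z ∧ w3 M' q A ζ i₀ oo z ≤ 1 ∧
      w3 M' q A ζ i₀ zr z ≤ 1 ∧ Rd (rho3 M' q A ζ i₀ (md ())) z φ := by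
  obtain ⟨z, h1, h2, h3, h4⟩ := surjαE A ζ hM hq hqM hA hζ φ hφ
  exact ⟨z, h1, h2.le_one, h4.le_one, h3 i₀⟩

theorem surjzC (φ : LaurentSeries (kA A)) (hφ : φ ∈ (RP.RC A M').toSubring) :
    ∃ z : EC A (M' * q * q), IsInt (EH (IA A)) (tE M' q A) z ∧ w3 M' q A ζ i₀ oo z ≤ 1 ∧
      w3 M' q A ζ i₀ (md ()) z ≤ 1 ∧ Rd (rho3 M' q A ζ i₀ zr) z φ := by
  obtain ⟨z, h1, h2, h3, h4⟩ := surjγE A ζ hM hq hqM hA hζ φ hφ
  exact ⟨z, h1, h2.le_one, (h3 i₀).le_one, h4⟩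

theorem poloC (z : EC A (M' * q * q)) (φ : LaurentSeries (kA A))
    (hi : IsInt (EH (IA A)) (tE M' q A)⁻¹ z) (hm : w3 M' q A ζ i₀ (md ()) z ≤ 1)
    (hz : w3 M' q A ζ i₀ zr z ≤ 1) (h : Rd (rho3 M' q A ζ i₀ oo) z φ) :
    ∀ i : ℤ, i < 0 → φ.coeff i = 0 :=
  polE A ζ hM hq hqM hA hζ i₀ oo z φ hi h.le_one hm hz h

theorem polmC (z : EC A (M' * q * q)) (φ : LaurentSeries (kA A))
    (hi : IsInt (EH (IA A)) (tE M' q A)⁻¹ z) (ho : w3 M' q A ζ i₀ oo z ≤ 1)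
    (hz : w3 M' q A ζ i₀ zr z ≤ 1) (h : Rd (rho3 M' q A ζ i₀ (md ())) z φ) :
    ∀ i : ℤ, i < 0 → φ.coeff i = 0 :=
  polE A ζ hM hq hqM hA hζ i₀ (md i₀) z φ hi ho h.le_one hz h

theorem polzC (z : EC A (M' * q * q)) (φ : LaurentSeries (kA A))
    (hi : IsInt (EH (IA A)) (tE M' q A)⁻¹ z) (ho : w3 M' q A ζ i₀ oo z ≤ 1)
    (hm : w3 M' q A ζ i₀ (md ()) z ≤ 1) (h : Rd (rho3 M' q A ζ i₀ zr) z φ) :
    ∀ i : ℤ, i < 0 → φ.coeff i = 0 :=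
  polE A ζ hM hq hqM hA hζ i₀ zr z φ hi ho hm h.le_one h

end Fields

end Fermat.Agent.CAR.P1.Conc
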